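import Fermat.Agent.LangNeron.Positive
import Fermat.Agent.NeronSpecialisation.GaloisDescent
import Fermat.Agent.NeronSpecialisation.GeneralMW
import Fermat.Agent.EC.TorsionCard
import Mathlib.LinearAlgebra.FreeModule.PID
import Mathlib.Algebra.Module.Torsion.Basic

/-!
# The theorem of Lang and Néron for non-constant `j`

By the gap of the height the saturation of finitely many independent points is finitely generated;
it embeds modulo two in `E/2E`, which bounds the rank over algebraically closed constants.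
-/

set_option autoImplicit false
set_option linter.style.haveILetI false
set_option linter.unusedSectionVars false

noncomputable section

open WeierstrassCurve Polynomial
open FA.CallSilverman
open FA.NeronSpecialisation
open FA.FunctionFieldRank (pointMap pointMap_injective)
open scoped Classical

namespace FA.LangNeron

variable {k : Type*} [Field k] [CharZero k] {W : WeierstrassCurve k[X]}

/-- The points killed by a number are finitely many. -/
theorem finite_nsmul_zero {F : Type*} [Field F] [CharZero F] (E : WeierstrassCurve F)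
    [E.IsElliptic] {n : ℕ} (hn : n ≠ 0) : {P : E.toAffine.Point | n • P = 0}.Finite := by
  set g := algebraMap F (AlgebraicClosure F)
  have h := FA.EC.natCard_nsmul_eq_zero (E.map g) (n := n) (Nat.cast_ne_zero.2 hn)
  have hf : Finite {P : (E.map g).toAffine.Point // n • P = 0} :=
    Nat.finite_of_card_ne_zero (by rw [h]; exact pow_ne_zero 2 hn)
  refine ((Set.finite_coe_iff.1 hf : {P : (E.map g).toAffine.Point | n • P = 0}.Finite).preimage
    (pointMap_injective g (W := E) rfl).injOn).subset fun P hP => ?_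
  show n • pointMap g (W := E) rfl P = 0
  rw [← map_nsmul, show n • P = 0 from hP, map_zero]

/-- The elements with a nonzero multiple in a subgroup. -/
def saturation {G : Type*} [AddCommGroup G] (p : Submodule ℤ G) : Submodule ℤ G where
  carrier := {R | ∃ m : ℤ, m ≠ 0 ∧ m • R ∈ p}
  add_mem' {R S} := fun ⟨m, hm, hR⟩ ⟨m', hm', hS⟩ => ⟨m * m', mul_ne_zero hm hm', by
    rw [smul_add]
    refine p.add_mem ?_ ?_
    · rw [mul_comm, mul_smul]; exact p.smul_mem _ hR
    · rw [mul_smul]; exact p.smul_mem _ hS⟩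
  zero_mem' := ⟨1, one_ne_zero, by rw [smul_zero]; exact p.zero_mem⟩
  smul_mem' c R := fun ⟨m, hm, hR⟩ => ⟨m, hm, by rw [smul_comm]; exact p.smul_mem _ hR⟩

theorem mem_saturation {G : Type*} [AddCommGroup G] {p : Submodule ℤ G} {R : G} :
    R ∈ saturation p ↔ ∃ m : ℤ, m ≠ 0 ∧ m • R ∈ p := Iff.rfl

/-- **The saturation of independent points is finitely generated.** -/
theorem saturation_fg (h : NonSplit W) {n : ℕ} (P : Fin n → (genW W).toAffine.Point) :
    haveI := genW_isElliptic h.1
    (saturation (Submodule.span ℤ (Set.range P))).FG := by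
  haveI := genW_isElliptic h.1
  obtain ⟨-, hpar, -⟩ := genHgt_spec h.1
  obtain ⟨δ, hδ, N, hN, hgap⟩ := exists_gap h
  set S := ∑ i, ∑ j, |genPairing W (P i) (P j)|
  have hS : 0 ≤ S := Finset.sum_nonneg fun i _ => Finset.sum_nonneg fun j _ => abs_nonneg _
  obtain ⟨K, hK⟩ := exists_nat_gt (max 1 (S / δ))
  have hK1 : (1 : ℝ) < K := (le_max_left _ _).trans_lt hK
  have hK0 : (0 : ℝ) < K := zero_lt_one.trans hK1
  set H := saturation (Submodule.span ℤ (Set.range P))
  -- an element of the saturation with its cell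
  set InCell : (Fin n → Fin K) → (genW W).toAffine.Point → Prop := fun q R =>
    ∃ (m : ℤ) (a : Fin n → ℤ), m ≠ 0 ∧ m • R = ∑ i, a i • P i ∧
      ∀ i, ⌊(K : ℝ) * ((a i : ℝ) / m)⌋ = (q i : ℕ)
  set rep : (Fin n → Fin K) → (genW W).toAffine.Point := fun q =>
    if hq : ∃ R, InCell q R then hq.choose else 0
  have hrep : ∀ q, rep q ∈ H := fun q => by
    by_cases hq : ∃ R, InCell q R
    · simp only [rep, dif_pos hq]
      obtain ⟨m, a, hm, he, -⟩ := hq.choose_spec
      exact ⟨m, hm, he ▸ Submodule.sum_mem _ fun i _ =>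
        Submodule.smul_mem _ _ (Submodule.subset_span ⟨i, rfl⟩)⟩
    · simp only [rep, dif_neg hq]
      exact H.zero_mem
  have htors : {R : (genW W).toAffine.Point | N • R = 0}.Finite :=
    finite_nsmul_zero (genW W) hN.ne'
  refine Submodule.fg_def.2 ⟨Set.range P ∪ Set.range rep ∪ {R | N • R = 0},
    ((Set.finite_range P).union (Set.finite_range rep)).union htors,
    le_antisymm (Submodule.span_le.2 ?_) fun R hR => ?_⟩
  · rintro R ((⟨i, rfl⟩ | ⟨q, rfl⟩) | hR)
    · exact ⟨1, one_ne_zero, by rw [one_smul]; exact Submodule.subset_span ⟨i, rfl⟩⟩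
    · exact hrep q
    · exact ⟨N, Int.natCast_ne_zero.2 hN.ne', by
        rw [natCast_zsmul, show N • R = 0 from hR]; exact Submodule.zero_mem _⟩
  obtain ⟨m, hm, hmR⟩ := mem_saturation.1 hR
  obtain ⟨a, ha⟩ := (Submodule.mem_span_range_iff_exists_fun ℤ).1 hmR
  set z : Fin n → ℤ := fun i => ⌊(a i : ℝ) / m⌋
  set R₀ := R - ∑ i, z i • P i with hR₀def
  have hR₀ : m • R₀ = ∑ i, (a i - m * z i) • P i := by
    simp only [R₀, zsmul_sub, Finset.smul_sum, smul_smul, sub_smul, Finset.sum_sub_distrib, ha]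
  have hm' : (m : ℝ) ≠ 0 := Int.cast_ne_zero.2 hm
  have hc : ∀ i, ((a i - m * z i : ℤ) : ℝ) / m = Int.fract ((a i : ℝ) / m) := fun i => by
    rw [← Int.self_sub_floor]; push_cast; field_simp; rfl
  have hq : ∀ i, ⌊(K : ℝ) * Int.fract ((a i : ℝ) / m)⌋.toNat < K := fun i => by
    rw [Int.toNat_lt' (by exact_mod_cast hK0)]
    refine Int.floor_lt.2 ?_
    push_cast
    calc (K : ℝ) * Int.fract ((a i : ℝ) / m) < K * 1 :=
          mul_lt_mul_of_pos_left (Int.fract_lt_one _) hK0
      _ = K := mul_one _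
  set q : Fin n → Fin K := fun i => ⟨_, hq i⟩
  have hex : ∃ R', InCell q R' := ⟨R₀, m, fun i => a i - m * z i, hm, hR₀, fun i => by
    rw [hc]
    exact (Int.toNat_of_nonneg (Int.floor_nonneg.2 (mul_nonneg hK0.le (Int.fract_nonneg _)))).symm⟩
  obtain ⟨m', a', hm1, he', hcell⟩ := hex.choose_spec
  have hrepq : rep q = hex.choose := dif_pos hex
  rw [← hrepq] at he'
  have hm1' : (m' : ℝ) ≠ 0 := Int.cast_ne_zero.2 hm1
  have hdiff : (m * m') • (R₀ - rep q) = ∑ i, (m' * (a i - m * z i) - m * a' i) • P i := by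
    rw [zsmul_sub, mul_comm m m', mul_smul, hR₀, mul_comm m' m, mul_smul, he']
    simp only [mul_sub, zsmul_sub, Finset.smul_sum, smul_smul, sub_smul, Finset.sum_sub_distrib]
  have hval : ((m * m' : ℤ) : ℝ) ^ 2 * genHgt W (R₀ - rep q) ≤
      ((m * m' : ℤ) : ℝ) ^ 2 * ((1 / (K : ℝ)) ^ 2 * S) := by
    rw [← FA.Height.map_zsmul_of_law hpar, hdiff, ← pairForm_int h.1, ← mul_assoc, ← mul_pow]
    refine le_of_eq_of_le rfl ((pairForm_le P (δ := |((m * m' : ℤ) : ℝ)| * (1 / K)) fun i => ?_).trans
      (le_of_eq (by rw [mul_pow, sq_abs, mul_pow])))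
    have h2 : |(K : ℝ) * Int.fract ((a i : ℝ) / m) - (K : ℝ) * ((a' i : ℝ) / m')| < 1 :=
      Int.abs_sub_lt_one_of_floor_eq_floor ((hcell i).trans
        (Int.toNat_of_nonneg (Int.floor_nonneg.2 (mul_nonneg hK0.le (Int.fract_nonneg _))))).symm
    rw [← mul_sub, abs_mul, abs_of_pos hK0, ← lt_div_iff₀' hK0, ← hc] at h2
    have e : ((m' * (a i - m * z i) - m * a' i : ℤ) : ℝ) =
        ((m * m' : ℤ) : ℝ) * (((a i - m * z i : ℤ) : ℝ) / m - (a' i : ℝ) / m') := by
      push_cast; field_simp
    rw [e, abs_mul]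
    exact mul_le_mul_of_nonneg_left h2.le (abs_nonneg _)
  have hmm : (0 : ℝ) < ((m * m' : ℤ) : ℝ) ^ 2 :=
    lt_of_le_of_ne (sq_nonneg _) (Ne.symm (pow_ne_zero _ (Int.cast_ne_zero.2 (mul_ne_zero hm hm1))))
  have hlt : genHgt W (R₀ - rep q) < δ := by
    refine (le_of_mul_le_mul_left hval hmm).trans_lt ?_
    have h1 : S / δ < K := (le_max_right _ _).trans_lt hK
    rw [div_lt_iff₀ hδ] at h1
    rw [div_pow, one_pow, div_mul_eq_mul_div, one_mul, div_lt_iff₀ (by positivity)]
    nlinarith
  have hspan : R₀ - rep q ∈ Submodule.span ℤ (Set.range P ∪ Set.range rep ∪ {R | N • R = 0}) :=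
    Submodule.subset_span (Or.inr (hgap _ hlt))
  rw [show R = (R₀ - rep q) + rep q + ∑ i, z i • P i by rw [hR₀def]; abel]
  exact Submodule.add_mem _ (Submodule.add_mem _ hspan
    (Submodule.subset_span (Or.inl (Or.inr ⟨q, rfl⟩))))
    (Submodule.sum_mem _ fun i _ => Submodule.smul_mem _ _
      (Submodule.subset_span (Or.inl (Or.inl ⟨i, rfl⟩))))

/-- A finitely generated saturated subgroup with `n` independent elements has at least `2 ^ n`
classes modulo two. -/
theorem two_pow_le_index {G : Type*} [AddCommGroup G] {H : Submodule ℤ G} (hH : H.FG)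
    (hsat : ∀ g : G, ∀ m : ℤ, m ≠ 0 → m • g ∈ H → g ∈ H) {n : ℕ} {P : Fin n → G}
    (hP : LinearIndependent ℤ P) (hPH : ∀ i, P i ∈ H)
    [(nsmulAddMonoidHom (α := G) 2).range.FiniteIndex] :
    2 ^ n ≤ (nsmulAddMonoidHom (α := G) 2).range.index := by
  haveI : Module.Finite ℤ H := Module.Finite.iff_fg.2 hH
  set T := Submodule.torsion ℤ H
  haveI : Module.Free ℤ (H ⧸ T) := Module.free_of_finite_type_torsion_free'
  set b := Module.Free.chooseBasis ℤ (H ⧸ T)
  set d := Fintype.card (Module.Free.ChooseBasisIndex ℤ (H ⧸ T))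
  have hn : n ≤ d := by
    rw [← Fintype.card_fin n, show d = Module.finrank ℤ (H ⧸ T) by
      rw [Module.finrank_eq_card_chooseBasisIndex]]
    refine LinearIndependent.fintype_card_le_finrank (b := fun i => T.mkQ ⟨P i, hPH i⟩)
      (Fintype.linearIndependent_iff.2 fun g hg i => ?_)
    have hmem : (∑ i, g i • (⟨P i, hPH i⟩ : H)) ∈ T := by
      rw [← Submodule.Quotient.mk_eq_zero, ← Submodule.mkQ_apply, map_sum]
      simpa only [map_smul] using hg
    obtain ⟨⟨r, hr⟩, hr0⟩ := (Submodule.mem_torsion_iff _).1 hmem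
    have h0 : ∑ i, (r * g i) • P i = 0 := by
      have := congrArg (fun x : H => (x : G)) hr0
      simpa [Submonoid.smul_def, Finset.smul_sum, smul_smul] using this
    exact (mul_eq_zero.1 (Fintype.linearIndependent_iff.1 hP _ h0 i)).resolve_left
      (nonZeroDivisors.ne_zero hr)
  choose lift hlift using fun v : Module.Free.ChooseBasisIndex ℤ (H ⧸ T) → ZMod 2 =>
    T.mkQ_surjective (∑ i, ((v i).val : ℤ) • b i)
  have hinj : Function.Injective fun v : Module.Free.ChooseBasisIndex ℤ (H ⧸ T) → ZMod 2 =>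
      (QuotientAddGroup.mk (lift v : G) : G ⧸ (nsmulAddMonoidHom (α := G) 2).range) := by
    intro v v' he
    obtain ⟨g, hg⟩ := (QuotientAddGroup.eq).1 he
    have hgH : g ∈ H := hsat g 2 two_ne_zero (by
      rw [show ((2 : ℤ) • g : G) = nsmulAddMonoidHom (α := G) 2 g by
        rw [nsmulAddMonoidHom_apply, ← natCast_zsmul]; rfl, hg]
      exact H.add_mem (H.neg_mem (lift v).2) (lift v').2)
    have e : lift v' = lift v + (2 : ℤ) • (⟨g, hgH⟩ : H) := Subtype.ext (by
      show (lift v' : G) = lift v + (2 : ℤ) • g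
      rw [show ((2 : ℤ) • g : G) = nsmulAddMonoidHom (α := G) 2 g by
        rw [nsmulAddMonoidHom_apply, ← natCast_zsmul]; rfl, hg]
      abel)
    have h2 := congrArg (fun x => b.repr (T.mkQ x)) e
    simp only [map_add, map_smul, hlift] at h2
    funext i
    have h3 := congrArg (fun f => ((f i : ℤ) : ZMod 2)) h2
    simp [Finsupp.single_apply, Finset.sum_ite_eq', show (2 : ZMod 2) = 0 from rfl] at h3
    exact h3.symm
  calc 2 ^ n ≤ 2 ^ d := Nat.pow_le_pow_right two_pos hn
    _ = Nat.card (Module.Free.ChooseBasisIndex ℤ (H ⧸ T) → ZMod 2) := by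
        rw [Nat.card_eq_fintype_card, Fintype.card_fun, ZMod.card]
    _ ≤ Nat.card (G ⧸ (nsmulAddMonoidHom (α := G) 2).range) := Nat.card_le_card_of_injective _ hinj

/-- A maximal independent family, given a bound for the size of independent families. -/
theorem exists_maximal {G : Type*} [AddCommGroup G] {N : ℕ}
    (hN : ∀ (n : ℕ) (P : Fin n → G), LinearIndependent ℤ P → n ≤ N) :
    ∃ (n : ℕ) (P : Fin n → G), LinearIndependent ℤ P ∧
      ∀ R, R ∈ saturation (Submodule.span ℤ (Set.range P)) := by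
  have hex : ∃ n ≤ N, ∃ P : Fin n → G, LinearIndependent ℤ P :=
    ⟨0, Nat.zero_le _, Fin.elim0, linearIndependent_empty_type⟩
  set n := Nat.findGreatest (fun n => ∃ P : Fin n → G, LinearIndependent ℤ P) N
  obtain ⟨P, hP⟩ : ∃ P : Fin n → G, LinearIndependent ℤ P :=
    Nat.findGreatest_spec (P := fun n => ∃ P : Fin n → G, LinearIndependent ℤ P) (Nat.zero_le N)
      ⟨Fin.elim0, linearIndependent_empty_type⟩
  refine ⟨n, P, hP, fun R => ?_⟩
  by_contra hR
  have hLI : LinearIndependent ℤ (Fin.cons R P) := Fintype.linearIndependent_iff.2 fun g hg i => by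
    rw [Fin.sum_univ_succ] at hg
    simp only [Fin.cons_zero, Fin.cons_succ] at hg
    have h0 : g 0 = 0 := by_contra fun h0 => hR ⟨g 0, h0, by
      rw [eq_neg_of_add_eq_zero_left hg]
      exact Submodule.neg_mem _ (Submodule.sum_mem _ fun i _ =>
        Submodule.smul_mem _ _ (Submodule.subset_span ⟨i, rfl⟩))⟩
    rw [h0, zero_smul, zero_add] at hg
    cases i using Fin.cases with
    | zero => exact h0
    | succ i => exact Fintype.linearIndependent_iff.1 hP (fun i => g i.succ) hg i
  exact Nat.findGreatest_is_greatest (P := fun n => ∃ P : Fin n → G, LinearIndependent ℤ P)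
    (Nat.lt_succ_self n) (hN _ _ hLI) ⟨_, hLI⟩

/-- **Lang–Néron** for algebraically closed constants. -/
theorem fg_algClosed [IsAlgClosed k] (h : NonSplit W) :
    haveI := genW_isElliptic h.1
    Module.Finite ℤ (genW W).toAffine.Point := by
  haveI := genW_isElliptic h.1
  haveI := finiteIndex_two_algClosed (genW W)
  have hbound : ∀ (n : ℕ) (P : Fin n → (genW W).toAffine.Point), LinearIndependent ℤ P →
      n ≤ (nsmulAddMonoidHom (α := (genW W).toAffine.Point) 2).range.index := fun n P hP => by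
    refine Nat.lt_two_pow_self.le.trans (two_pow_le_index (saturation_fg h P) ?_ hP fun i =>
      ⟨1, one_ne_zero, by rw [one_smul]; exact Submodule.subset_span ⟨i, rfl⟩⟩)
    rintro g m hm ⟨m', hm', hg⟩
    exact ⟨m' * m, mul_ne_zero hm' hm, by rwa [mul_smul]⟩
  obtain ⟨n, P, -, htop⟩ := exists_maximal hbound
  haveI : Module.Finite ℤ (saturation (Submodule.span ℤ (Set.range P))) :=
    Module.Finite.iff_fg.2 (saturation_fg h P)
  exact Module.Finite.of_surjective
    (Submodule.subtype (saturation (Submodule.span ℤ (Set.range P)))) fun R => ⟨⟨R, htop R⟩, rfl⟩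

/-- **Lang–Néron** for non-constant `j` over every field of characteristic zero. -/
theorem fg_genW (h : NonSplit W) :
    haveI := genW_isElliptic h.1
    Module.Finite ℤ (genW W).toAffine.Point := by
  haveI := genW_isElliptic h.1
  set ψ := algebraMap k (AlgebraicClosure k)
  have hW' : (W.map (mapRingHom ψ)).Δ ≠ 0 := by
    rw [WeierstrassCurve.map_Δ, coe_mapRingHom]
    exact (Polynomial.map_ne_zero_iff ψ.injective).2 h.1
  haveI := genW_isElliptic hW'
  haveI := fg_algClosed (W := W.map (mapRingHom ψ)) ⟨hW', fun e => h.2 (isSplit_of_map h.1 e)⟩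
  have hG : (genW W).map (constMap ψ) = genW (W.map (mapRingHom ψ)) := genW_map ψ W
  exact Module.Finite.of_injective (pointMap (constMap ψ) hG).toIntLinearMap
    (pointMap_injective (constMap ψ) hG)

/-- An integral equation, split exactly for a constant curve. -/
theorem exists_model (E : WeierstrassCurve (RatFunc k)) [E.IsElliptic] :
    ∃ (W : WeierstrassCurve k[X]) (C : VariableChange (RatFunc k)),
      W.Δ ≠ 0 ∧ C • E = genW W ∧ (IsSplit W ↔ ∃ (E₀ : WeierstrassCurve k)
        (C₀ : VariableChange (RatFunc k)), C₀ • E = E₀.map (algebraMap k (RatFunc k))) := by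
  obtain ⟨W, C, hW, hC⟩ := exists_integral_model E
  refine ⟨W, C, hW, hC, (isSplit_iff hW).trans ⟨fun ⟨E₀, C₀, h⟩ => ⟨E₀, C₀ * C, ?_⟩,
    fun ⟨E₀, C₀, h⟩ => ⟨E₀, C₀ * C⁻¹, ?_⟩⟩⟩
  · rw [mul_smul, hC, h]
  · rw [← hC, mul_smul, inv_smul_smul, h]

/-- **The theorem of Lang and Néron over `k(T)`**: constant, or finitely generated. -/
theorem fg_point_ratFunc (E : WeierstrassCurve (RatFunc k)) [E.IsElliptic]
    (hE : ¬∃ (E₀ : WeierstrassCurve k) (C₀ : VariableChange (RatFunc k)),
      C₀ • E = E₀.map (algebraMap k (RatFunc k))) : AddGroup.FG E.toAffine.Point := by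
  obtain ⟨W, C, hW, hC, hiff⟩ := exists_model E
  haveI := genW_isElliptic hW
  haveI := fg_genW ⟨hW, fun e => hE (hiff.1 e)⟩
  haveI : AddGroup.FG (genW W).toAffine.Point := Module.Finite.iff_addGroup_fg.mp inferInstance
  exact AddGroup.fg_of_surjective (f := (FA.Frob.vcEquiv C hC).toAddMonoidHom)
    (FA.Frob.vcEquiv C hC).surjective

/-- A constant curve has constant invariant. -/
theorem not_constant_of_j (E : WeierstrassCurve (RatFunc k)) [E.IsElliptic]
    (hj : ∀ c : k, E.j ≠ algebraMap k (RatFunc k) c) :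
    ¬∃ (E₀ : WeierstrassCurve k) (C₀ : VariableChange (RatFunc k)),
      C₀ • E = E₀.map (algebraMap k (RatFunc k)) := by
  rintro ⟨E₀, C₀, h⟩
  haveI : E₀.IsElliptic := (WeierstrassCurve.isElliptic_iff _).2 (isUnit_iff_ne_zero.2 fun e => by
    have h1 := (C₀ • E).isUnit_Δ.ne_zero
    rw [h, WeierstrassCurve.map_Δ, e, map_zero] at h1
    exact h1 rfl)
  refine hj E₀.j ?_
  rw [← WeierstrassCurve.map_j, ← variableChange_j E C₀]
  simp only [h]

end FA.LangNeron
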