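import Fermat.Agent.Local.Basic
import Fermat.Agent.EC.MulFormula
import Fermat.Agent.Frob.VarChange
import Mathlib.AlgebraicGeometry.EllipticCurve.DivisionPolynomial.Degree
import Mathlib.RingTheory.Valuation.Integers
import Mathlib.LinearAlgebra.Dimension.StrongRankCondition
import Mathlib.RingTheory.PrincipalIdealDomain

/-!
# The pole orders of the abscissae of a finitely generated group of points are bounded

At a valuation under which the nonzero integers are units the filtration of the kernel of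
reduction consists of subgroups stable under division. So points at different levels are
independent, and there are at most as many levels as the rank.
-/

set_option autoImplicit false
set_option linter.style.haveILetI false
set_option linter.unusedSectionVars false

noncomputable section

open WeierstrassCurve Polynomial FA.EC FA.Local FA.Frob
open scoped Classical

namespace FA.LangNeron

variable {L Γ : Type*} [Field L] [LinearOrderedCommGroupWithZero Γ] {v : Valuation L Γ}
  {W : WeierstrassCurve L}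

theorem val_eval {P : L[X]} (hc : ∀ k, v (P.coeff k) ≤ 1) {d : ℕ} (hdeg : P.natDegree ≤ d)
    (hl : v (P.coeff d) = 1) {x : L} (hx : 1 < v x) : v (P.eval x) = v x ^ d := by
  have hx0 : x ≠ 0 := v.pos_iff.mp (zero_lt_one.trans hx)
  rw [eval_eq_sum_range' (Nat.lt_succ_of_le hdeg), Finset.sum_range_succ, v.map_add_eq_of_lt_right]
  · rw [map_mul, map_pow, hl, one_mul]
  · rw [map_mul (f := v) (P.coeff d), map_pow, hl, one_mul]
    refine v.map_sum_lt (pow_ne_zero _ (v.ne_zero_iff.mpr hx0)) fun i hi => ?_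
    rw [map_mul, map_pow]
    exact (mul_le_of_le_one_left' (hc i)).trans_lt (pow_lt_pow_right₀ hx (Finset.mem_range.mp hi))

theorem coeff_divisionPoly_le (hI : IntCoeff v W.toAffine) (n : ℤ) (k : ℕ) :
    v ((W.Φ n).coeff k) ≤ 1 ∧ v ((W.ΨSq n).coeff k) ≤ 1 := by
  let W₀ : WeierstrassCurve v.integer :=
    ⟨⟨W.a₁, hI.h₁⟩, ⟨W.a₂, hI.h₂⟩, ⟨W.a₃, hI.h₃⟩, ⟨W.a₄, hI.h₄⟩, ⟨W.a₆, hI.h₆⟩⟩
  have hW : W = W₀.map v.integer.subtype := rfl
  rw [hW, map_Φ, map_ΨSq, coeff_map, coeff_map]
  exact ⟨((W₀.Φ n).coeff k).2, ((W₀.ΨSq n).coeff k).2⟩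

variable [W.IsElliptic]

/-- **A multiple of a point of the kernel of reduction has an abscissa of the same value.** -/
theorem val_x_zsmul (hI : IntCoeff v W.toAffine) {n : ℤ} (hn : v (n : L) = 1) {x y : L}
    (h : W.toAffine.Nonsingular x y) (hx : 1 < v x) :
    ∃ (x' y' : L) (h' : W.toAffine.Nonsingular x' y'),
      n • Affine.Point.some x y h = .some x' y' h' ∧ v x' = v x := by
  have hn0 : n ≠ 0 := fun e => by rw [e, Int.cast_zero, map_zero] at hn; exact zero_ne_one hn
  have hx0 : v x ≠ 0 := (zero_lt_one.trans hx).ne'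
  have hΦ : v ((W.Φ n).eval x) = v x ^ n.natAbs ^ 2 :=
    val_eval (fun k => (coeff_divisionPoly_le hI n k).1) (W.natDegree_Φ_le n)
      (by rw [W.coeff_Φ, map_one]) hx
  have hΨ : v ((W.ΨSq n).eval x) = v x ^ (n.natAbs ^ 2 - 1) :=
    val_eval (fun k => (coeff_divisionPoly_le hI n k).2) (W.natDegree_ΨSq_le n)
      (by rw [W.coeff_ΨSq, map_pow, hn, one_pow]) hx
  have hΨ0 : (W.ΨSq n).eval x ≠ 0 := v.ne_zero_iff.1 (hΨ ▸ pow_ne_zero _ hx0)
  obtain ⟨Y, h', he⟩ := zsmul_eq_some h n hΨ0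
  refine ⟨_, Y, h', he, ?_⟩
  rw [map_div₀, hΦ, hΨ, div_eq_iff (pow_ne_zero _ hx0), ← pow_succ']
  congr 1
  have : 1 ≤ n.natAbs ^ 2 := Nat.one_le_pow _ _ (Int.natAbs_pos.2 hn0)
  omega

variable {π : L} (hπ : π ≠ 0) (hπ1 : v π ≤ 1) (hI : IntCoeff v W.toAffine)

/-- The scaling of level `n`. -/
def levC (n : ℕ) : VariableChange L := ⟨Units.mk0 (π ^ n)⁻¹ (inv_ne_zero (pow_ne_zero n hπ)), 0, 0, 0⟩

include hπ1 hI in
theorem intCoeff_levC (n : ℕ) : IntCoeff v (levC hπ n • W).toAffine := by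
  have hp : v (π ^ n) ≤ 1 := map_pow_le_one hπ1 n
  refine ⟨?_, ?_, ?_, ?_, ?_⟩
  all_goals simp only [levC, variableChange_a₁, variableChange_a₂, variableChange_a₃,
    variableChange_a₄, variableChange_a₆, Units.val_inv_eq_inv_val, Units.val_mk0, inv_inv,
    mul_zero, zero_mul, sub_zero, add_zero, ne_eq, OfNat.ofNat_ne_zero, not_false_eq_true,
    zero_pow]
  · exact map_mul_le_one hp hI.h₁
  · exact map_mul_le_one (map_pow_le_one hp 2) hI.h₂
  · exact map_mul_le_one (map_pow_le_one hp 3) hI.h₃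
  · exact map_mul_le_one (map_pow_le_one hp 4) hI.h₄
  · exact map_mul_le_one (map_pow_le_one hp 6) hI.h₆

/-- The points with a pole of order above `2 n` of the abscissa, and zero. -/
def poleLev (n : ℕ) : AddSubgroup W.toAffine.Point :=
  (e1Subgroup (intCoeff_levC hπ hπ1 hI n)).map (vcEquiv (levC hπ n) rfl).toAddMonoidHom

theorem some_mem_poleLev {n : ℕ} {x y : L} {h : W.toAffine.Nonsingular x y} :
    Affine.Point.some x y h ∈ poleLev hπ hπ1 hI n ↔ 1 < v ((π ^ n) ^ 2 * x) := by
  obtain ⟨P, hP⟩ := (vcEquiv (levC hπ n) (rfl : levC hπ n • W = _)).surjective (.some x y h)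
  rw [← hP, poleLev, AddSubgroup.mem_map_equiv, AddEquiv.symm_apply_apply, mem_e1Subgroup]
  rcases P with _ | ⟨x', y', h'⟩
  · rw [← Affine.Point.zero_def, map_zero] at hP
    exact absurd hP.symm (Affine.Point.some_ne_zero h)
  · rw [vcEquiv_some, Affine.Point.some.injEq] at hP
    rw [e1_some, ← hP.1]
    simp only [vcX, levC, Units.val_mk0, add_zero, inv_pow]
    rw [← mul_assoc, mul_inv_cancel₀ (pow_ne_zero 2 (pow_ne_zero n hπ)), one_mul]

theorem poleLev_antitone {m n : ℕ} (h : m ≤ n) : poleLev hπ hπ1 hI n ≤ poleLev hπ hπ1 hI m := by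
  intro P hP
  rcases P with _ | ⟨x, y, hxy⟩
  · exact zero_mem _
  rw [some_mem_poleLev] at hP ⊢
  refine hP.trans_le ?_
  rw [map_mul, map_mul, map_pow, map_pow, map_pow, map_pow, ← pow_mul, ← pow_mul]
  exact mul_le_mul' (pow_le_pow_right_of_le_one' hπ1 (Nat.mul_le_mul_right 2 h)) le_rfl

include hπ hπ1 hI in
/-- **The pole orders are bounded.** -/
theorem exists_pole_bound [Module.Finite ℤ W.toAffine.Point]
    (hv : ∀ m : ℤ, m ≠ 0 → v (m : L) = 1) (harch : ∀ x : L, ∃ n : ℕ, v (π ^ n * x) ≤ 1) :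
    ∃ N : ℕ, ∀ (x y : L), W.toAffine.Nonsingular x y → v ((π ^ N) ^ 2 * x) ≤ 1 := by
  set levels : Set ℕ := {n | ∃ P, P ∈ poleLev hπ hπ1 hI n ∧ P ∉ poleLev hπ hπ1 hI (n + 1)}
  have hfin : levels.Finite := by
    by_contra hinf
    obtain ⟨s, hs, hcard⟩ := Set.Infinite.exists_subset_card_eq hinf
      (Module.finrank ℤ W.toAffine.Point + 1)
    choose P hP hP' using fun n : s => hs n.2
    have hLI : LinearIndependent ℤ P := by
      refine Fintype.linearIndependent_iff.2 fun g hg => ?_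
      by_contra hne
      push Not at hne
      obtain ⟨n₀, hn₀, hmin⟩ := Finset.exists_min_image (Finset.univ.filter fun n => g n ≠ 0)
        (fun n => (n : ℕ)) (by
          obtain ⟨i, hi⟩ := hne
          exact ⟨i, Finset.mem_filter.2 ⟨Finset.mem_univ _, hi⟩⟩)
      have hrest : ∑ n ∈ Finset.univ.erase n₀, g n • P n ∈ poleLev hπ hπ1 hI ((n₀ : ℕ) + 1) := by
        refine sum_mem fun n hn => ?_
        by_cases h0 : g n = 0
        · rw [h0, zero_smul]; exact zero_mem _
        refine zsmul_mem (poleLev_antitone hπ hπ1 hI ?_ (hP n)) _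
        have h1 := hmin n (Finset.mem_filter.2 ⟨Finset.mem_univ _, h0⟩)
        have h2 : (n : ℕ) ≠ (n₀ : ℕ) := fun e => (Finset.mem_erase.1 hn).1 (Subtype.ext e)
        omega
      rw [← Finset.add_sum_erase _ _ (Finset.mem_univ n₀)] at hg
      have hmem : g n₀ • P n₀ ∈ poleLev hπ hπ1 hI ((n₀ : ℕ) + 1) := by
        rw [eq_neg_of_add_eq_zero_left hg]; exact neg_mem hrest
      have h1 := hP n₀
      have h2 := hP' n₀
      rcases hQ : P n₀ with _ | ⟨x, y, hxy⟩
      · rw [hQ, ← Affine.Point.zero_def] at h2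
        exact h2 (zero_mem _)
      rw [hQ] at h1 h2 hmem
      have hx : 1 < v x := by
        have := (some_mem_poleLev hπ hπ1 hI).1 (poleLev_antitone hπ hπ1 hI (Nat.zero_le _) h1)
        simpa using this
      obtain ⟨x', y', h', he, hval⟩ := val_x_zsmul hI (hv _ (Finset.mem_filter.1 hn₀).2) hxy hx
      rw [he, some_mem_poleLev] at hmem
      rw [some_mem_poleLev] at h2
      rw [map_mul, hval, ← map_mul] at hmem
      exact h2 hmem
    have hle := hLI.fintype_card_le_finrank
    rw [Fintype.card_coe, hcard] at hle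
    omega
  obtain ⟨N, hN⟩ := hfin.bddAbove
  refine ⟨N + 1, fun x y h => ?_⟩
  by_contra hbig
  rw [not_le] at hbig
  obtain ⟨n, hn⟩ := harch x
  have hstop : ∃ j, Affine.Point.some x y h ∉ poleLev hπ hπ1 hI (N + 1 + j) := ⟨n, fun hm => by
    rw [some_mem_poleLev] at hm
    refine absurd (hm.trans_le ?_) (not_lt.2 hn)
    rw [map_mul, map_mul, map_pow, map_pow, map_pow, ← pow_mul]
    exact mul_le_mul' (pow_le_pow_right_of_le_one' hπ1 (by omega)) le_rfl⟩
  have h0 : Nat.find hstop ≠ 0 := fun e => by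
    have := Nat.find_spec hstop
    rw [e] at this
    exact this ((some_mem_poleLev hπ hπ1 hI).2 hbig)
  obtain ⟨j, hj⟩ := Nat.exists_eq_succ_of_ne_zero h0
  have hmem : N + 1 + j ∈ levels :=
    ⟨_, not_not.1 (Nat.find_min hstop (show j < Nat.find hstop by omega)), by
      have := Nat.find_spec hstop
      rw [hj] at this
      exact this⟩
  have := hN hmem
  omega

end FA.LangNeron
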