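import Fermat.Agent.LangNeron.FiniteGen

/-!
# Silverman's theorem in its original form

Over a number field specialisation is injective at all but finitely many parameters: it is
injective on torsion at every smooth fibre, and a maximal independent family has nondegenerate
pairing, so stays independent.
-/

set_option autoImplicit false
set_option linter.style.haveILetI false
set_option linter.unusedSectionVars false

noncomputable section

open WeierstrassCurve Polynomial
open FA.CallSilverman
open FA.NeronSpecialisation
open FA.FunctionFieldRank (pointMap pointMap_injective)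
open scoped Classical

namespace FA.LangNeron

/-- **Specialisation is injective on the torsion at every smooth fibre.** -/
theorem specW_eq_zero_of_torsion {F : Type*} [Field F] [CharZero F] {W : WeierstrassCurve F[X]}
    {t : F} (ht : (fibreW W t).Δ ≠ 0) {P : (genW W).toAffine.Point} (hP : IsOfFinAddOrder P)
    (h : specW W ht P = 0) : P = 0 := by
  haveI := FA.Frob.redCurve_isElliptic (intCoeff_genW W t) (valuation_Δ_genW ht)
  haveI : (genW W).toAffine.IsElliptic :=
    genW_isElliptic fun e => eval_Δ_ne ht (by rw [e, eval_zero])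
  by_contra hne
  obtain ⟨p, hp, c, hc⟩ := Nat.exists_prime_and_dvd (mt AddMonoid.addOrderOf_eq_one_iff.1 hne)
  have hc0 : 0 < c := Nat.pos_of_ne_zero fun e => hP.addOrderOf_pos.ne' (by rw [hc, e, mul_zero])
  have hpP : p • c • P = 0 := by rw [← mul_nsmul', ← hc, addOrderOf_nsmul_eq_zero]
  have hlt : c < addOrderOf P := by rw [hc]; exact lt_mul_of_one_lt_left hc0 hp.one_lt
  refine nsmul_ne_zero_of_lt_addOrderOf hc0.ne' hlt
    (FA.Frob.redHom_injOn (intCoeff_genW W t) (valuation_Δ_genW ht) hp ?_ hpP ?_)
  · have hu : IsUnit ((p : ℕ) : valueRing t) :=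
      (isUnit_map_iff (valueAt t) _).1 (by
        rw [map_natCast]; exact isUnit_iff_ne_zero.2 (Nat.cast_ne_zero.2 hp.ne_zero))
    rw [show ((p : ℕ) : RatFunc F) = ((p : valueRing t) : RatFunc F) from
      (map_natCast (valueRing t).subtype p).symm]
    exact (FA.Frob.valuation_eq_one_iff (valueRing t) _).2 hu
  · exact pointMap_injective (residueValue t) (redCurve_map_fibre W t)
      ((show specW W ht (c • P) = 0 by rw [map_nsmul, h, nsmul_zero]).trans (map_zero _).symm)

variable {K : Type*} [Field K] [NumberField K] {W : WeierstrassCurve K[X]}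

/-- **Silverman's specialisation theorem.** -/
theorem finite_not_injective_specW (h : NonSplit W) :
    {t : K | ∃ ht : (fibreW W t).Δ ≠ 0, ¬Function.Injective (specW W ht)}.Finite := by
  haveI := genW_isElliptic h.1
  haveI := fg_genW h
  obtain ⟨n, P, hP, htop⟩ := exists_maximal (G := (genW W).toAffine.Point)
    (N := Module.finrank ℤ (genW W).toAffine.Point) fun m Q hQ => by
      simpa using hQ.fintype_card_le_finrank
  refine (finite_dependent_specW h.1 P (genPairing_posDef h hP).det_pos.ne').subset ?_
  rintro t ⟨ht, hinj⟩
  refine ⟨ht, fun hli => hinj ((injective_iff_map_eq_zero _).2 fun R hR => ?_)⟩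
  obtain ⟨m, hm, hmR⟩ := mem_saturation.1 (htop R)
  obtain ⟨a, ha⟩ := (Submodule.mem_span_range_iff_exists_fun ℤ).1 hmR
  have h0 : ∑ i, a i • specW W ht (P i) = 0 := by
    have := congrArg (specW W ht) ha
    simp only [map_sum, map_zsmul, hR, zsmul_zero] at this
    exact this
  have ha0 : ∀ i, a i = 0 := Fintype.linearIndependent_iff.1 hli a h0
  refine specW_eq_zero_of_torsion ht (isOfFinAddOrder_iff_zsmul_eq_zero.2 ⟨m, hm, ?_⟩) hR
  rw [← ha]
  simp [ha0]

/-- At all but finitely many parameters the fibre is smooth and specialisation injective, on a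
constant curve too. -/
theorem finite_bad_parameters (hW : W.Δ ≠ 0) :
    {t : K | ¬∃ ht : (fibreW W t).Δ ≠ 0, Function.Injective (specW W ht)}.Finite := by
  by_cases hs : IsSplit W
  · exact (finite_bad_fibres hW).subset fun t ht => by_contra fun h0 =>
      ht ⟨h0, specW_injective_of_isSplit hW hs h0⟩
  refine ((finite_bad_fibres hW).union (finite_not_injective_specW ⟨hW, hs⟩)).subset fun t ht => ?_
  by_cases h0 : (fibreW W t).Δ = 0
  · exact Or.inl h0
  · exact Or.inr ⟨h0, fun hi => ht ⟨h0, hi⟩⟩

end FA.LangNeron
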