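import Fermat.Agent.LangNeron.FiniteGen
import Fermat.Agent.LangNeron.PoleOrders
import Mathlib.FieldTheory.RatFunc.Valuation
import Mathlib.GroupTheory.FiniteAbelian.Basic

/-!
# Integral points over `k[T]`

On a curve over `k(T)` that is not constant the points are finitely generated, so the pole orders
of the abscissae are bounded at every place; points whose abscissa has poles in a fixed finite set
thus have bounded height, and there are finitely many of those.
-/

set_option autoImplicit false
set_option linter.style.haveILetI false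
set_option linter.unusedSectionVars false

noncomputable section

open WeierstrassCurve Polynomial OnePoint
open FA.ArithmeticDynamics FA.CallSilverman
open FA.NeronSpecialisation
open FA.FunctionFieldRank (pointMap pointMap_some pointMap_injective)
open scoped Classical

namespace FA.LangNeron

variable {k : Type*} [Field k] [CharZero k] {W : WeierstrassCurve k[X]}

/-- **Finitely many points of bounded height.** -/
theorem finite_genHgt_le (h : NonSplit W) (B : ℝ) :
    {P : (genW W).toAffine.Point | genHgt W P ≤ B}.Finite := by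
  haveI := genW_isElliptic h.1
  haveI := fg_genW h
  obtain ⟨-, hpar, hnn⟩ := genHgt_spec h.1
  obtain ⟨δ, hδ, M, hM, hgap⟩ := exists_gap h
  obtain ⟨m, hm⟩ := exists_nat_gt (max 1 (4 * B / δ))
  have hm1 : (1 : ℝ) < m := (le_max_left _ _).trans_lt hm
  have hm0 : m ≠ 0 := fun e => by rw [e, Nat.cast_zero] at hm1; linarith
  haveI : AddGroup.FG (genW W).toAffine.Point := Module.Finite.iff_addGroup_fg.mp inferInstance
  set H := (nsmulAddMonoidHom (α := (genW W).toAffine.Point) m).range
  haveI : Finite ((genW W).toAffine.Point ⧸ H) := by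
    refine AddCommGroup.finite_of_fg_torsion _ fun c => ?_
    obtain ⟨P, rfl⟩ := QuotientAddGroup.mk_surjective c
    refine isOfFinAddOrder_iff_nsmul_eq_zero.2 ⟨m, Nat.pos_of_ne_zero hm0, ?_⟩
    rw [← QuotientAddGroup.mk_nsmul, QuotientAddGroup.eq_zero_iff]
    exact ⟨P, rfl⟩
  set F : (genW W).toAffine.Point ⧸ H → Set (genW W).toAffine.Point := fun c =>
    {P | genHgt W P ≤ B ∧ (P : (genW W).toAffine.Point ⧸ H) = c}
  refine (Set.finite_iUnion (f := F) fun c => ?_).subset
    fun P hP => Set.mem_iUnion.2 ⟨(P : (genW W).toAffine.Point ⧸ H), hP, rfl⟩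
  rcases Set.eq_empty_or_nonempty (F c) with he | ⟨R, hR, hRc⟩
  · rw [he]; exact Set.finite_empty
  refine ((finite_nsmul_zero (genW W) hM.ne').image fun T => R + T).subset ?_
  rintro P ⟨hP, hPc⟩
  obtain ⟨Q, hQ⟩ := QuotientAddGroup.eq.1 (hRc.trans hPc.symm)
  rw [nsmulAddMonoidHom_apply, neg_add_eq_sub] at hQ
  refine ⟨P - R, ?_, by abel⟩
  show M • (P - R) = 0
  have h1 := hpar P R
  have h2 := hnn (P + R)
  have h3 : genHgt W (P - R) = (m : ℝ) ^ 2 * genHgt W Q := by
    rw [← hQ, FA.Height.map_nsmul_of_law hpar]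
  have hQs : genHgt W Q < δ := by
    by_contra hge
    rw [not_lt] at hge
    have h4 : 4 * B / δ < m := (le_max_right _ _).trans_lt hm
    rw [div_lt_iff₀ hδ] at h4
    have h5 : (m : ℝ) * δ ≤ (m : ℝ) ^ 2 * genHgt W Q :=
      mul_le_mul (by nlinarith) hge hδ.le (sq_nonneg _)
    linarith
  rw [← hQ, smul_comm, hgap Q hQs, nsmul_zero]

theorem finite_ptDeg_le (h : NonSplit W) (B : ℕ) :
    {P : (genW W).toAffine.Point | ptDeg (toPoint P.xRep) ≤ B}.Finite := by
  obtain ⟨⟨C, hC⟩, -, -⟩ := genHgt_spec h.1
  refine (finite_genHgt_le h (B + C)).subset fun P hP => ?_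
  have h1 : (ptDeg (toPoint P.xRep) : ℝ) ≤ B := Nat.cast_le.2 hP
  have h2 := (abs_le.1 (hC P)).2
  show genHgt W P ≤ B + C
  linarith

/-- **The pole order of the abscissa is bounded at every finite place.** -/
theorem exists_finite_pole_bound (h : NonSplit W) (t : k) :
    ∃ N : ℕ, ∀ x y : RatFunc k, (genW W).toAffine.Nonsingular x y →
      x.denom.rootMultiplicity t ≤ N := by
  haveI := genW_isElliptic h.1
  haveI := fg_genW h
  set g := algebraMap k[X] (RatFunc k)
  set π := g (X - Polynomial.C t)
  have hπ : π ≠ 0 := RatFunc.algebraMap_ne_zero (X_sub_C_ne_zero t)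
  obtain ⟨N, hN⟩ := exists_pole_bound (v := (valueRing t).valuation) hπ
    (((valueRing t).valuation_le_one_iff _).2 (algebraMap_mem_valueRing t _))
    (intCoeff_genW W t)
    (fun m hm => by
      have hu : IsUnit ((m : ℤ) : valueRing t) :=
        (isUnit_map_iff (valueAt t) _).1 (by
          rw [map_intCast]; exact isUnit_iff_ne_zero.2 (Int.cast_ne_zero.2 hm))
      rw [show ((m : ℤ) : RatFunc k) = (((m : ℤ) : valueRing t) : RatFunc k) from
        (map_intCast (valueRing t).subtype m).symm]
      exact (FA.Frob.valuation_eq_one_iff (valueRing t) _).2 hu)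
    (fun x => by
      obtain ⟨c, hcd, hc⟩ := exists_eq_pow_rootMultiplicity_mul_and_not_dvd x.denom
        x.denom_ne_zero t
      refine ⟨x.denom.rootMultiplicity t, ((valueRing t).valuation_le_one_iff _).2 ?_⟩
      have hc0 : c ≠ 0 := fun e => hc (e ▸ dvd_zero _)
      intro he
      refine hc (dvd_iff_isRoot.2 ?_)
      obtain ⟨d, hd⟩ : (π ^ x.denom.rootMultiplicity t * x).denom ∣ c :=
        (RatFunc.denom_dvd hc0).2 ⟨x.num, by
          have hd := RatFunc.algebraMap_ne_zero (K := k) x.denom_ne_zero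
          have h1 : x * g x.denom = g x.num := (eq_div_iff hd).1 (RatFunc.num_div_denom x).symm
          have h2 : g x.denom = π ^ x.denom.rootMultiplicity t * g c := by
            rw [← map_pow, ← map_mul, ← hcd]
          rw [eq_div_iff (RatFunc.algebraMap_ne_zero hc0), mul_right_comm, mul_comm, ← h2]
          exact h1⟩
      rw [IsRoot, hd, eval_mul, he, zero_mul])
  refine ⟨2 * N, fun x y hxy => ?_⟩
  have hv := hN x y hxy
  rw [(valueRing t).valuation_le_one_iff] at hv
  by_contra hlt
  rw [not_le] at hlt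
  set z := (π ^ N) ^ 2 * x with hz
  have e : z.denom * ((X - Polynomial.C t) ^ (2 * N) * x.num) = z.num * x.denom := by
    refine RatFunc.algebraMap_injective k ?_
    have hd := RatFunc.algebraMap_ne_zero (K := k) x.denom_ne_zero
    have hzd := RatFunc.algebraMap_ne_zero (K := k) z.denom_ne_zero
    have h1 : g x.num = x * g x.denom := ((eq_div_iff hd).1 (RatFunc.num_div_denom x).symm).symm
    have h2 : g z.num = z * g z.denom := ((eq_div_iff hzd).1 (RatFunc.num_div_denom z).symm).symm
    simp only [g] at h1 h2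
    rw [map_mul, map_mul, map_mul, map_pow, h1, h2, hz, ← pow_mul]
    simp only [π, g]
    ring
  obtain ⟨c, hc⟩ : (X - Polynomial.C t) ^ (2 * N + 1) ∣ x.denom :=
    (pow_dvd_pow _ hlt).trans (pow_rootMultiplicity_dvd x.denom t)
  have hco : IsCoprime (X - Polynomial.C t) x.num := by
    refine (RatFunc.isCoprime_num_denom x).symm.of_isCoprime_of_dvd_left ?_
    rw [hc, pow_succ']
    exact dvd_mul_of_dvd_left (dvd_mul_right _ _) _
  have e' : z.denom * x.num = (X - Polynomial.C t) * (z.num * c) := by
    refine mul_left_cancel₀ (pow_ne_zero (2 * N) (X_sub_C_ne_zero t)) ?_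
    rw [hc] at e
    linear_combination e
  exact hv (dvd_iff_isRoot.1 (hco.dvd_of_dvd_mul_right ⟨_, e'⟩))

/-- **The pole order is bounded at infinity.** -/
theorem exists_infinite_pole_bound (h : NonSplit W) :
    ∃ N : ℕ, ∀ x y : RatFunc k, (genW W).toAffine.Nonsingular x y →
      x.num.natDegree ≤ x.denom.natDegree + N := by
  haveI := genW_isElliptic h.1
  haveI := fg_genW h
  set g := algebraMap k[X] (RatFunc k)
  set d := max (max W.a₁.natDegree W.a₂.natDegree) (max W.a₃.natDegree
    (max W.a₄.natDegree W.a₆.natDegree))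
  have hX : (RatFunc.X : RatFunc k) ≠ 0 := RatFunc.X_ne_zero
  set C₀ : VariableChange (RatFunc k) :=
    ⟨Units.mk0 ((RatFunc.X : RatFunc k) ^ d) (pow_ne_zero _ hX), 0, 0, 0⟩
  haveI : Module.Finite ℤ (C₀ • genW W).toAffine.Point :=
    Module.Finite.of_surjective (FA.Frob.vcEquiv C₀ rfl).symm.toAddMonoidHom.toIntLinearMap
      (FA.Frob.vcEquiv C₀ rfl).symm.surjective
  have hval : ∀ (p : k[X]) (i : ℕ), p.natDegree ≤ i →
      RatFunc.inftyValuation k (g p / RatFunc.X ^ i) ≤ 1 := by
    intro p i hp
    rcases eq_or_ne p 0 with rfl | hp0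
    · simp
    rw [map_div₀, map_pow, RatFunc.inftyValuation.X, RatFunc.inftyValuation_apply,
      RatFunc.inftyValuation.polynomial k hp0, ← WithZero.exp_nsmul, ← WithZero.exp_sub,
      ← WithZero.exp_zero, WithZero.exp_le_exp, nsmul_eq_mul, mul_one]
    omega
  have hI : FA.Local.IntCoeff (RatFunc.inftyValuation k) (C₀ • genW W).toAffine := by
    refine ⟨?_, ?_, ?_, ?_, ?_⟩
    all_goals simp only [C₀, variableChange_a₁, variableChange_a₂, variableChange_a₃,
      variableChange_a₄, variableChange_a₆, Units.val_inv_eq_inv_val, Units.val_mk0, mul_zero,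
      zero_mul, sub_zero, add_zero, ne_eq, OfNat.ofNat_ne_zero, not_false_eq_true, zero_pow,
      WeierstrassCurve.map, inv_pow, ← pow_mul, ← div_eq_inv_mul]
    all_goals exact hval _ _ (by omega)
  obtain ⟨N, hN⟩ := exists_pole_bound (v := RatFunc.inftyValuation k) (W := C₀ • genW W)
    (π := (RatFunc.X : RatFunc k)⁻¹) (inv_ne_zero hX)
    (by rw [map_inv₀, RatFunc.inftyValuation.X, ← WithZero.exp_neg, ← WithZero.exp_zero,
          WithZero.exp_le_exp]; norm_num)
    hI (fun m hm => by
      rw [← map_intCast (RatFunc.C : k →+* RatFunc k) m]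
      exact RatFunc.inftyValuation.C k (Int.cast_ne_zero.2 hm))
    (fun x => ⟨x.intDegree.toNat, by
      rcases eq_or_ne x 0 with rfl | hx
      · simp
      rw [map_mul, map_pow, map_inv₀, RatFunc.inftyValuation.X, RatFunc.inftyValuation_apply,
        RatFunc.inftyValuation_of_nonzero k hx, ← WithZero.exp_neg, ← WithZero.exp_nsmul,
        ← WithZero.exp_add, ← WithZero.exp_zero, WithZero.exp_le_exp, nsmul_eq_mul]
      omega⟩)
  refine ⟨2 * N + 2 * d, fun x y hxy => ?_⟩
  rcases eq_or_ne x 0 with rfl | hx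
  · simp
  obtain ⟨P, hP⟩ := (FA.Frob.vcEquiv C₀ (rfl : C₀ • genW W = _)).surjective (.some x y hxy)
  rcases P with _ | ⟨x', y', h'⟩
  · rw [← Affine.Point.zero_def, map_zero] at hP
    exact absurd hP.symm (Affine.Point.some_ne_zero hxy)
  rw [FA.Frob.vcEquiv_some, Affine.Point.some.injEq] at hP
  have hx' := hP.1
  simp only [FA.Frob.vcX, C₀, Units.val_mk0, add_zero] at hx'
  have hx'0 : x' ≠ 0 := fun e => hx (by rw [← hx', e, mul_zero])
  have hv := hN x' y' h'
  rw [map_mul, map_pow, map_pow, map_inv₀, RatFunc.inftyValuation.X, RatFunc.inftyValuation_apply,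
    RatFunc.inftyValuation_of_nonzero k hx'0, ← WithZero.exp_neg, ← WithZero.exp_nsmul,
    ← WithZero.exp_nsmul, ← WithZero.exp_add, ← WithZero.exp_zero, WithZero.exp_le_exp,
    nsmul_eq_mul, nsmul_eq_mul] at hv
  have hdeg : x.intDegree = 2 * (d : ℤ) + x'.intDegree := by
    rw [← hx', ← pow_mul, RatFunc.intDegree_mul (pow_ne_zero _ hX) hx'0]
    congr 1
    rw [← RatFunc.algebraMap_X, ← map_pow, RatFunc.intDegree_polynomial, natDegree_X_pow]
    push_cast
    ring
  rw [RatFunc.intDegree] at hdeg
  push_cast at hv hdeg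
  omega

/-- **Siegel's theorem** over `k(T)`: finitely many points whose abscissa has poles only at the
roots of `q` and at infinity. -/
theorem finite_siegel (h : NonSplit W) {q : k[X]} (hq : q ≠ 0) :
    {P : (genW W).toAffine.Point | ∃ (x y : RatFunc k) (hxy : (genW W).toAffine.Nonsingular x y),
      P = .some x y hxy ∧ ∃ m : ℕ, x.denom ∣ q ^ m}.Finite := by
  set ψ := algebraMap k (AlgebraicClosure k)
  set W' := W.map (mapRingHom ψ) with hW'def
  have hW' : W'.Δ ≠ 0 := by
    rw [hW'def, WeierstrassCurve.map_Δ, coe_mapRingHom]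
    exact (Polynomial.map_ne_zero_iff ψ.injective).2 h.1
  have h' : NonSplit W' := ⟨hW', fun e => h.2 (isSplit_of_map h.1 e)⟩
  haveI := genW_isElliptic h.1
  haveI := genW_isElliptic hW'
  obtain ⟨N, hN⟩ := exists_infinite_pole_bound h'
  choose D hD using fun t => exists_finite_pole_bound h' t
  set B := ∑ t ∈ (q.map ψ).roots.toFinset, D t
  have hG : (genW W).map (constMap ψ) = genW W' := genW_map ψ W
  refine ((finite_ptDeg_le h' (B + N)).preimage
    (pointMap_injective (constMap ψ) hG).injOn).subset ?_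
  rintro _ ⟨x, y, hxy, rfl, m, hm⟩
  show ptDeg (toPoint (pointMap (constMap ψ) hG (Affine.Point.some x y hxy)).xRep) ≤ B + N
  rw [pointMap_some, ptDeg_some]
  have hns : (genW W').toAffine.Nonsingular (constMap ψ x) (constMap ψ y) :=
    hG ▸ ((genW W).toAffine.map_nonsingular (constMap ψ).injective x y).2 hxy
  have hden : (constMap ψ x).denom.natDegree ≤ B := by
    set p := (constMap ψ x).denom with hp
    have hsub : p.roots.toFinset ⊆ (q.map ψ).roots.toFinset := fun t ht => by
      rw [hp, Multiset.mem_toFinset, mem_roots (constMap ψ x).denom_ne_zero, IsRoot,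
        denom_constMap] at ht
      rw [Multiset.mem_toFinset, mem_roots ((Polynomial.map_ne_zero_iff ψ.injective).2 hq)]
      refine eq_zero_of_pow_eq_zero (n := m) ?_
      rw [← eval_pow, ← Polynomial.map_pow]
      obtain ⟨c, hc⟩ := hm
      rw [hc, Polynomial.map_mul, eval_mul, ht, zero_mul]
    rw [(IsAlgClosed.splits p).natDegree_eq_card_roots, ← Multiset.toFinset_sum_count_eq]
    refine (Finset.sum_le_sum fun t _ => ?_).trans (Finset.sum_le_sum_of_subset hsub)
    rw [count_roots]
    exact hD t _ _ hns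
  have := hN _ _ hns
  exact max_le (by omega) (by omega)

end FA.LangNeron
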