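import Fermat.Agent.CallSilverman.Elliptic
import Fermat.Agent.FunctionFieldRank.MordellWeil

/-!
# The height of a point over `F(T)` for any field `F`

The height of a rational function is its degree; so the limit of `deg x (2^k P) / 4^k` is a
quadratic form within a bounded distance of `deg x (P)`, over every field of constants.
-/

set_option autoImplicit false
set_option linter.style.haveILetI false
set_option linter.unusedSectionVars false

noncomputable section

open WeierstrassCurve Polynomial OnePoint Height Filter Topology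
open FA.ArithmeticDynamics FA.CallSilverman
open FA.FunctionFieldRank
open FA.NeronSpecialisation (genW genW_isElliptic)
open scoped Classical

namespace FA.LangNeron

attribute [local instance] heightData

variable {F : Type*} [Field F]

theorem logHeight₁_eq_degree (x : RatFunc F) :
    logHeight₁ x = (max x.num.natDegree x.denom.natDegree : ℕ) * Real.log (degBase F) := by
  rw [Height.logHeight₁, ← Real.log_pow]
  refine congrArg Real.log (le_antisymm ?_ (pow_degree_le_mulHeight₁ x))
  have hq1 : (1 : ℝ) < degBase F := one_lt_degBase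
  rcases eq_or_ne x 0 with rfl | hx
  · simp [RatFunc.num_zero, RatFunc.denom_zero]
  rw [Height.mulHeight₁_eq]
  show (Multiset.map _ (0 : Multiset (AbsoluteValue (RatFunc F) ℝ))).prod *
      (∏ᶠ v : Set.range (placeAbv (F := F)), max (v.1 x) 1) ≤ _
  rw [Multiset.map_zero, Multiset.prod_zero, one_mul,
    ← finprod_comp (Equiv.ofInjective _ placeAbv_injective) (Equiv.bijective _)]
  simp only [Equiv.ofInjective_apply, placeAbv_apply _ hx]
  rw [finprod_eq_prod_of_mulSupport_subset _ (s := placeSupport x) fun o ho => by
    by_contra h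
    exact ho (by simp [placeWeight_eq_zero h])]
  set U := primeSupport x.num ∪ primeSupport x.denom
  rw [placeSupport, Finset.prod_insert (by simp), Finset.prod_map]
  have h2 : ∏ P ∈ U, max (degBase F ^ placeWeight (Function.Embedding.some P) x) 1 ≤
      degBase F ^ x.denom.natDegree := by
    rw [natDegree_eq_sum x.denom_ne_zero U Finset.subset_union_right, ← Finset.prod_pow_eq_pow_sum]
    refine Finset.prod_le_prod (fun _ _ => le_trans zero_le_one (le_max_right _ _)) fun P _ =>
      max_le ?_ (one_le_pow₀ hq1.le)
    rw [Function.Embedding.some_apply, ← zpow_natCast]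
    refine zpow_le_zpow_right₀ hq1.le ?_
    simp only [placeWeight, ordAt]
    push_cast
    nlinarith [Int.natCast_nonneg P.1.natDegree, Int.natCast_nonneg (expAt P.1 x.num)]
  refine (mul_le_mul_of_nonneg_left h2 (le_trans zero_le_one (le_max_right _ _))).trans ?_
  simp only [placeWeight, RatFunc.intDegree]
  rw [max_mul_of_nonneg _ _ (pow_nonneg (by linarith) _), one_mul, ← zpow_natCast,
    ← zpow_add₀ (by linarith : degBase F ≠ 0), sub_add_cancel, ← zpow_natCast (degBase F) (max _ _)]
  exact max_le (zpow_le_zpow_right₀ hq1.le (by exact_mod_cast le_max_left _ _))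
    (zpow_le_zpow_right₀ hq1.le (by exact_mod_cast le_max_right _ _))

theorem logHeight_xRep {E : WeierstrassCurve (RatFunc F)} (P : E.toAffine.Point) :
    logHeight P.xRep = ptDeg (toPoint P.xRep) * Real.log (degBase F) := by
  rcases P with _ | ⟨x, y, h⟩
  · show logHeight (0 : E.toAffine.Point).xRep = ptDeg (toPoint (0 : E.toAffine.Point).xRep) * _
    rw [Affine.Point.xRep_zero, show toPoint ![(1 : RatFunc F), 0] = ∞ by simp [toPoint],
      logHeight_swap, ← logHeight₁_eq_logHeight, logHeight₁_zero, ptDeg_infty]
    simp
  · rw [Affine.Point.xRep_some, show toPoint ![x, (1 : RatFunc F)] = ↑x by simp [toPoint],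
      ← logHeight₁_eq_logHeight, logHeight₁_eq_degree, ptDeg_coe]

/-- **The height over `F(T)`**: quadratic, nonnegative, within a bounded distance of the degree. -/
theorem genHgt_spec {W : WeierstrassCurve F[X]} (hW : W.Δ ≠ 0) :
    (∃ C : ℝ, ∀ P : (genW W).toAffine.Point,
        |genHgt W P - ptDeg (toPoint P.xRep)| ≤ C) ∧
      (∀ P Q : (genW W).toAffine.Point,
        genHgt W (P + Q) + genHgt W (P - Q) = 2 * (genHgt W P + genHgt W Q)) ∧
      ∀ P : (genW W).toAffine.Point, 0 ≤ genHgt W P := by
  haveI := genW_isElliptic hW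
  have hq : 0 < Real.log (degBase F) := Real.log_pos one_lt_degBase
  obtain ⟨C, hC⟩ := naiveHgt_parallelogram (E := genW W)
  have hdeg : ∀ P : (genW W).toAffine.Point,
      (ptDeg (toPoint P.xRep) : ℝ) = naiveHgt P / Real.log (degBase F) := fun P => by
    rw [naiveHgt, logHeight_xRep, mul_div_cancel_right₀ _ hq.ne']
  obtain ⟨f, ⟨D, hD⟩, h2, hpar, hnn⟩ := FA.Height.exists_quadratic
    (h := fun P : (genW W).toAffine.Point => (ptDeg (toPoint P.xRep) : ℝ))
    (C := C / Real.log (degBase F)) fun P Q => by
      simp only [hdeg]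
      rw [← add_div, ← add_div, mul_div_assoc', ← sub_div, abs_div, abs_of_pos hq]
      exact div_le_div_of_nonneg_right (hC P Q) hq.le
  have hlim : ∀ P : (genW W).toAffine.Point, genHgt W P = f P := fun P => by
    refine Tendsto.limUnder_eq ?_
    have hpow : ∀ n : ℕ, f ((2 ^ n) • P) = 4 ^ n * f P := fun n => by
      induction n with
      | zero => simp
      | succ n ih => rw [pow_succ', mul_nsmul', h2, ih, pow_succ']; ring
    refine tendsto_of_tendsto_of_dist (tendsto_const_nhds (x := f P)) (squeeze_zero
      (fun n => dist_nonneg) (fun n => ?_) (((tendsto_const_nhds (x := D))).div_atTop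
        (tendsto_pow_atTop_atTop_of_one_lt (show (1 : ℝ) < 4 by norm_num))))
    rw [Real.dist_eq]
    have e : f P - (ptDeg (toPoint ((2 ^ n) • P).xRep) : ℝ) / 4 ^ n =
        (f ((2 ^ n) • P) - ptDeg (toPoint ((2 ^ n) • P).xRep)) / 4 ^ n := by
      rw [hpow]; field_simp
    rw [e, abs_div, abs_of_pos (show (0 : ℝ) < 4 ^ n by positivity)]
    exact div_le_div_of_nonneg_right (hD _) (by positivity)
  simp only [hlim]
  exact ⟨⟨D, hD⟩, hpar, hnn fun P => Nat.cast_nonneg _⟩

end FA.LangNeron
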