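import Mathlib.FieldTheory.IsAlgClosed.Basic
import Mathlib.Algebra.CubicDiscriminant
import Mathlib.RingTheory.Polynomial.UniqueFactorization
import Mathlib.RingTheory.PrincipalIdealDomain
import Mathlib.FieldTheory.RatFunc.AsPolynomial
import Mathlib.RingTheory.IntegralClosure.IntegrallyClosed
import Mathlib.Tactic.LinearCombination

/-!
# A cubic curve with constant coefficients has only constant points over `k(T)`

If four independent members of the pencil of two coprime polynomials are squares, they are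
constant: their square roots give such a pencil of half the degree.
-/

set_option autoImplicit false

noncomputable section

open Polynomial

namespace FA.LangNeron

variable {k : Type*} [Field k]

theorem coprime_comb {p q : k[X]} (h : IsCoprime p q) {a b c d : k} (hD : a * d - b * c ≠ 0) :
    IsCoprime (C a * p + C b * q) (C c * p + C d * q) := by
  obtain ⟨x, y, hxy⟩ := h
  refine ⟨C (a * d - b * c)⁻¹ * (x * C d - y * C c), C (a * d - b * c)⁻¹ * (y * C a - x * C b), ?_⟩
  have e : C (a * d - b * c)⁻¹ * (C a * C d - C b * C c) = 1 := by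
    rw [← C_mul, ← C_mul, ← C_sub, ← C_mul, inv_mul_cancel₀ hD, C_1]
  linear_combination (x * p + y * q) * e + hxy

variable [IsAlgClosed k]

theorem isSquare_of_coprime_mul {a b : k[X]} (h : IsCoprime a b) (hs : IsSquare (a * b)) :
    IsSquare a := by
  obtain ⟨c, hc⟩ := hs
  obtain ⟨d, u, hd⟩ := exists_associated_pow_of_mul_eq_pow' h (k := 2) (hc.trans (sq c).symm)
  obtain ⟨r, -, hr⟩ := Polynomial.isUnit_iff.1 u.isUnit
  obtain ⟨s, hs⟩ := IsAlgClosed.exists_pow_nat_eq r two_pos
  exact ⟨C s * d, by rw [← hd, ← hr, ← hs, C_pow]; ring⟩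

/-- **Four squares in a pencil are constant.** -/
theorem pencil_const [NeZero (2 : k)] (n : ℕ) :
    ∀ {p q : k[X]}, IsCoprime p q → p.natDegree ≤ n → q.natDegree ≤ n → ∀ v : Fin 4 → k × k,
      (∀ i j, i ≠ j → (v i).1 * (v j).2 - (v i).2 * (v j).1 ≠ 0) →
      (∀ i, IsSquare (C (v i).1 * p + C (v i).2 * q)) → p.natDegree = 0 ∧ q.natDegree = 0 := by
  induction n using Nat.strong_induction_on with
  | _ n ih =>
    intro p q hpq hp hq v hv hsq
    rcases Nat.eq_zero_or_pos n with rfl | hn
    · exact ⟨Nat.le_zero.1 hp, Nat.le_zero.1 hq⟩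
    set det : Fin 4 → Fin 4 → k := fun i j => (v i).1 * (v j).2 - (v i).2 * (v j).1 with hdet
    have hD : det 0 1 ≠ 0 := hv 0 1 (by decide)
    obtain ⟨u, hu⟩ := hsq 0
    obtain ⟨w, hw⟩ := hsq 1
    have huw : IsCoprime u w := by
      have h := coprime_comb hpq hD
      rw [hu, hw] at h
      exact h.of_mul_left_left.of_mul_right_left
    have hdeg : ∀ {r : k[X]} {a b : k}, r * r = C a * p + C b * q → 2 * r.natDegree ≤ n := by
      intro r a b hr
      have h1 : (r * r).natDegree ≤ n := by
        rw [hr]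
        exact (natDegree_add_le _ _).trans (max_le ((natDegree_C_mul_le _ _).trans hp)
          ((natDegree_C_mul_le _ _).trans hq))
      rwa [← sq, natDegree_pow] at h1
    have hu2 := hdeg hu.symm
    have hw2 := hdeg hw.symm
    -- square roots of the coordinates of the other two
    have key : ∀ j : Fin 4, det j 1 ≠ 0 → det 0 j ≠ 0 → ∃ s t : k, s ≠ 0 ∧ t ≠ 0 ∧
        s ^ 2 = det j 1 / det 0 1 ∧ t ^ 2 = -(det 0 j / det 0 1) ∧
        IsSquare (C s * u + C t * w) ∧ IsSquare (C s * u + C (-t) * w) := by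
      intro j h1 h2
      obtain ⟨s, hs⟩ := IsAlgClosed.exists_pow_nat_eq (det j 1 / det 0 1) two_pos
      obtain ⟨t, ht⟩ := IsAlgClosed.exists_pow_nat_eq (-(det 0 j / det 0 1)) two_pos
      have hs0 : s ≠ 0 := fun e => div_ne_zero h1 hD (by rw [← hs, e, zero_pow two_ne_zero])
      have ht0 : t ≠ 0 := fun e =>
        neg_ne_zero.2 (div_ne_zero h2 hD) (by rw [← ht, e, zero_pow two_ne_zero])
      have ea : (v j).1 = s ^ 2 * (v 0).1 - t ^ 2 * (v 1).1 := by
        rw [hs, ht]; field_simp; simp only [det]; ring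
      have eb : (v j).2 = s ^ 2 * (v 0).2 - t ^ 2 * (v 1).2 := by
        rw [hs, ht]; field_simp; simp only [det]; ring
      have hprod : IsSquare ((C s * u + C t * w) * (C s * u + C (-t) * w)) := by
        have e : (C s * u + C t * w) * (C s * u + C (-t) * w) = C (v j).1 * p + C (v j).2 * q := by
          rw [ea, eb]
          simp only [C_sub, C_mul, C_pow, C_neg]
          linear_combination -(C s ^ 2) * hu + C t ^ 2 * hw
        rw [e]; exact hsq j
      have hco : IsCoprime (C s * u + C t * w) (C s * u + C (-t) * w) := coprime_comb huw (by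
        rw [show s * -t - t * s = -(2 * s * t) by ring]
        exact neg_ne_zero.2 (mul_ne_zero (mul_ne_zero two_ne_zero hs0) ht0))
      exact ⟨s, t, hs0, ht0, hs, ht, isSquare_of_coprime_mul hco hprod,
        isSquare_of_coprime_mul hco.symm (by rw [mul_comm (C s * u + C (-t) * w)]; exact hprod)⟩
    obtain ⟨s₂, t₂, hs₂, ht₂, es₂, et₂, q₁, q₂⟩ :=
      key 2 (hv 2 1 (by decide)) (hv 0 2 (by decide))
    obtain ⟨s₃, t₃, hs₃, ht₃, es₃, et₃, q₃, q₄⟩ :=
      key 3 (hv 3 1 (by decide)) (hv 0 3 (by decide))
    have hsq' : (s₂ * t₃) ^ 2 ≠ (s₃ * t₂) ^ 2 := fun e => hv 2 3 (by decide) (by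
      rw [mul_pow, mul_pow, es₂, et₂, es₃, et₃] at e
      field_simp at e
      refine (mul_eq_zero.1 (?_ : det 0 1 * det 2 3 = 0)).resolve_left hD
      simp only [det] at e ⊢
      linear_combination -e)
    have hA : s₂ * t₃ - s₃ * t₂ ≠ 0 := fun e => hsq' (by rw [sub_eq_zero.1 e])
    have hB : s₂ * t₃ + s₃ * t₂ ≠ 0 := fun e => hsq' (by rw [eq_neg_of_add_eq_zero_left e, neg_sq])
    have hst₂ : 2 * (s₂ * t₂) ≠ 0 := mul_ne_zero two_ne_zero (mul_ne_zero hs₂ ht₂)
    have hst₃ : 2 * (s₃ * t₃) ≠ 0 := mul_ne_zero two_ne_zero (mul_ne_zero hs₃ ht₃)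
    obtain ⟨hu0, hw0⟩ := ih (max u.natDegree w.natDegree) (by omega) huw (le_max_left _ _)
      (le_max_right _ _) ![(s₂, t₂), (s₂, -t₂), (s₃, t₃), (s₃, -t₃)] (fun i j hij => by
        fin_cases i <;> fin_cases j <;> first
          | exact absurd rfl hij
          | (simp only [Fin.zero_eta, Fin.mk_one, Fin.reduceFinMk, Fin.isValue, Matrix.cons_val]
             intro e
             first
               | exact hA (by linear_combination e)
               | exact hA (by linear_combination -e)
               | exact hB (by linear_combination e)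
               | exact hB (by linear_combination -e)
               | exact hst₂ (by linear_combination e)
               | exact hst₂ (by linear_combination -e)
               | exact hst₃ (by linear_combination e)
               | exact hst₃ (by linear_combination -e)))
      (fun i => by fin_cases i <;> simp only [Fin.zero_eta, Fin.mk_one, Fin.reduceFinMk, Fin.isValue, Matrix.cons_val] <;> assumption)
    have hlow : ∀ a b : k, (C a * (u * u) + C b * (w * w)).natDegree = 0 := fun a b =>
      Nat.le_zero.1 ((natDegree_add_le _ _).trans (max_le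
        ((natDegree_C_mul_le _ _).trans (by rw [← sq, natDegree_pow, hu0, mul_zero]))
        ((natDegree_C_mul_le _ _).trans (by rw [← sq, natDegree_pow, hw0, mul_zero]))))
    have eD : C (det 0 1)⁻¹ * C (det 0 1) = 1 := by rw [← C_mul, inv_mul_cancel₀ hD, C_1]
    constructor
    · rw [show p = C ((det 0 1)⁻¹ * (v 1).2) * (u * u) + C (-((det 0 1)⁻¹ * (v 0).2)) * (w * w) by
        rw [← hu, ← hw]; simp only [det, C_sub, C_mul, C_neg] at eD ⊢
        linear_combination -p * eD]
      exact hlow _ _
    · rw [show q = C (-((det 0 1)⁻¹ * (v 1).1)) * (u * u) + C ((det 0 1)⁻¹ * (v 0).1) * (w * w) by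
        rw [← hu, ← hw]; simp only [det, C_sub, C_mul, C_neg] at eD ⊢
        linear_combination -q * eD]
      exact hlow _ _

/-- **No nonconstant point on a smooth cubic with constant coefficients.** -/
theorem degree_eq_zero_of_cubic [CharZero k] {a b : k} (hd : a ^ 3 + 27 * b ^ 2 ≠ 0)
    {x y : RatFunc k}
    (h : y ^ 2 = 4 * x ^ 3 + algebraMap k (RatFunc k) a * x + algebraMap k (RatFunc k) b) :
    x.num.natDegree = 0 ∧ x.denom.natDegree = 0 := by
  set P : Cubic k := ⟨4, 0, a, b⟩
  have ha : P.a ≠ 0 := (show (4 : k) ≠ 0 by norm_num)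
  obtain ⟨e₁, e₂, e₃, h3⟩ := (Cubic.splits_iff_roots_eq_three (φ := RingHom.id k) ha).1
    (IsAlgClosed.splits _)
  obtain ⟨h12, h13, h23⟩ := (Cubic.discr_ne_zero_iff_roots_ne ha h3).1 (by
    simp only [Cubic.discr, P]
    exact fun e => hd (by linear_combination (-1 / 16 : k) * e))
  have eb : (0 : k) = 4 * -(e₁ + e₂ + e₃) := Cubic.b_eq_three_roots ha h3
  have ec : a = 4 * (e₁ * e₂ + e₁ * e₃ + e₂ * e₃) := Cubic.c_eq_three_roots ha h3
  have ed : b = 4 * -(e₁ * e₂ * e₃) := Cubic.d_eq_three_roots ha h3
  set g := algebraMap k[X] (RatFunc k)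
  have hC : ∀ c : k, algebraMap k (RatFunc k) c = g (C c) := fun c => by
    rw [IsScalarTower.algebraMap_apply k k[X] (RatFunc k), Polynomial.algebraMap_eq]
  have hq0 : g x.denom ≠ 0 := RatFunc.algebraMap_ne_zero x.denom_ne_zero
  have hx : x * g x.denom = g x.num :=
    (eq_div_iff hq0).1 (RatFunc.num_div_denom x).symm
  set p := x.num
  set q := x.denom
  have hsq : (y * g q ^ 2 / 2) ^ 2 = g (q * (p - C e₁ * q) * (p - C e₂ * q) * (p - C e₃ * q)) := by
    simp only [map_mul, map_sub, ← hC, ← hx, mul_pow, div_pow, h]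
    have eb' := congrArg (algebraMap k (RatFunc k)) eb
    rw [ec, ed]
    simp only [map_mul, map_add, map_neg, map_ofNat, map_zero] at eb' ⊢
    linear_combination (x ^ 2 * g q ^ 4 / 4) * eb'
  obtain ⟨H, hH⟩ := IsIntegrallyClosed.exists_algebraMap_eq_of_isIntegral_pow (R := k[X])
    (x := y * g q ^ 2 / 2) two_pos (by rw [hsq]; exact isIntegral_algebraMap)
  have hH2 : IsSquare (q * (p - C e₁ * q) * (p - C e₂ * q) * (p - C e₃ * q)) :=
    ⟨H, RatFunc.algebraMap_injective k (hsq.symm.trans (by rw [map_mul, hH, sq]))⟩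
  have hpq : IsCoprime p q := RatFunc.isCoprime_num_denom x
  have c0 : ∀ e, IsCoprime q (p - C e * q) := fun e => by
    have := coprime_comb hpq (a := 0) (b := 1) (c := 1) (d := -e) (by simp)
    simpa [sub_eq_add_neg] using this
  have c1 : ∀ {e e' : k}, e ≠ e' → IsCoprime (p - C e * q) (p - C e' * q) := fun {e e'} hne => by
    have := coprime_comb hpq (a := 1) (b := -e) (c := 1) (d := -e')
      (by rw [show (1 : k) * -e' - -e * 1 = e - e' by ring]; exact sub_ne_zero.2 hne)
    simpa [sub_eq_add_neg] using this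
  refine pencil_const (max p.natDegree q.natDegree) hpq (le_max_left _ _) (le_max_right _ _)
    ![(0, 1), (1, -e₁), (1, -e₂), (1, -e₃)] (fun i j hij => ?_) fun i => ?_
  · fin_cases i <;> fin_cases j <;> simp [neg_add_eq_sub, sub_eq_zero] <;>
      first
        | exact absurd rfl hij
        | exact h12
        | exact h12.symm
        | exact h13
        | exact h13.symm
        | exact h23
        | exact h23.symm
  · fin_cases i <;> simp [← sub_eq_add_neg]
    · exact isSquare_of_coprime_mul (((c0 e₁).mul_right (c0 e₂)).mul_right (c0 e₃))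
        (by rw [← mul_assoc, ← mul_assoc]; exact hH2)
    · exact isSquare_of_coprime_mul (((c0 e₁).symm.mul_right (c1 h12)).mul_right (c1 h13))
        (by convert hH2 using 1; ring)
    · exact isSquare_of_coprime_mul (((c0 e₂).symm.mul_right (c1 h12.symm)).mul_right (c1 h23))
        (by convert hH2 using 1; ring)
    · exact isSquare_of_coprime_mul (((c0 e₃).symm.mul_right (c1 h13.symm)).mul_right (c1 h23.symm))
        (by convert hH2 using 1; ring)

end FA.LangNeron
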