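import Mathlib.Algebra.Polynomial.Roots
import Mathlib.Algebra.Polynomial.Splits
import Mathlib.FieldTheory.IsAlgClosed.Basic
import Mathlib.Algebra.CubicDiscriminant
import Mathlib.Tactic.LinearCombination
import Fermat.Agent.LangNeron.Pencil
import Mathlib.Tactic.ComputeDegree

/-!
# Few solutions of `H² = 4 Z³ + a Z + b` with prescribed roots of `H`

If `a` and `b` are not constant multiples of a common fourth and sixth power then, for a finite
set `S`, boundedly many polynomials `Z` of bounded degree make `4 Z³ + a Z + b` a nonzero square with all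
roots in `S`: two of them differ by a polynomial dividing `M²`.
-/

set_option autoImplicit false

noncomputable section

open Polynomial
open scoped Classical

namespace FA.LangNeron

variable {k : Type*} [Field k]

/-- The monic polynomials of degree at most `D` with all roots in `S` (and some others). -/
def monicsWith (S : Finset k) (D : ℕ) : Finset k[X] :=
  (Finset.univ : Finset (S → Fin (D + 1))).image fun e => ∏ s, (X - C s.1) ^ (e s : ℕ)

theorem card_monicsWith (S : Finset k) (D : ℕ) :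
    (monicsWith S D).card ≤ (D + 1) ^ S.card := by
  refine Finset.card_image_le.trans ?_
  simp

theorem mem_monicsWith [IsAlgClosed k] {S : Finset k} {D : ℕ} {p : k[X]} (hp : p.Monic)
    (hD : p.natDegree ≤ D) (hS : ∀ t, p.IsRoot t → t ∈ S) : p ∈ monicsWith S D := by
  refine Finset.mem_image.2 ⟨fun s => ⟨p.roots.count s.1, Nat.lt_succ_of_le
    ((Multiset.count_le_card _ _).trans ((card_roots' p).trans hD))⟩, Finset.mem_univ _, ?_⟩
  have h : (p.roots.map fun a => X - C a).prod = p :=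
    prod_multiset_X_sub_C_of_monic_of_roots_card_eq hp
      (IsAlgClosed.splits p).natDegree_eq_card_roots.symm
  conv_rhs => rw [← h, Finset.prod_multiset_map_count]
  rw [Finset.univ_eq_attach, Finset.prod_attach S fun a => (X - C a) ^ p.roots.count a]
  refine (Finset.prod_subset (fun a ha => hS a (isRoot_of_mem_roots (Multiset.mem_toFinset.1 ha)))
    fun a _ ha => ?_).symm
  rw [Multiset.count_eq_zero.2 fun h => ha (Multiset.mem_toFinset.2 h), pow_zero]

variable [CharZero k]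

/-- Three solutions on one line through a solution make the equation degenerate. -/
theorem degenerate_of_three {a b M Z G : k[X]} (hG : G ≠ 0) {γ : k}
    (h : C γ * M ^ 2 = 4 * Z ^ 3 + a * Z + b) {c : Fin 3 → k} (hc : Function.Injective c)
    (hc0 : ∀ i, c i ≠ 0)
    (hsol : ∀ i, ∃ δ : k, C δ * M ^ 2 = 4 * (Z + C (c i) * G) ^ 3 + a * (Z + C (c i) * G) + b) :
    ∃ (R : k[X]) (κ μ : k), R ≠ 0 ∧ a = C κ * R ^ 4 ∧ b = C μ * R ^ 6 := by
  have hE : ∀ i, ∃ ε : k, C (c i) ^ 2 * (4 * G ^ 3) + C (c i) * (12 * Z * G ^ 2) +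
      (12 * Z ^ 2 + a) * G = C ε * M ^ 2 := fun i => by
    obtain ⟨δ, hδ⟩ := hsol i
    refine ⟨(δ - γ) / c i, mul_left_cancel₀ (C_ne_zero.2 (hc0 i)) ?_⟩
    conv_rhs => rw [← mul_assoc, ← C_mul, mul_div_cancel₀ _ (hc0 i), C_sub]
    linear_combination h - hδ
  choose ε hε using hE
  have h01 : c 0 - c 1 ≠ 0 := sub_ne_zero.2 (hc.ne (by decide))
  have h02 : c 0 - c 2 ≠ 0 := sub_ne_zero.2 (hc.ne (by decide))
  have h12 : c 1 - c 2 ≠ 0 := sub_ne_zero.2 (hc.ne (by decide))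
  set d := (c 0 - c 1) * (c 0 - c 2) * (c 1 - c 2)
  have hd : d ≠ 0 := mul_ne_zero (mul_ne_zero h01 h02) h12
  set α := (ε 0 - ε 1) * (c 0 - c 2) - (ε 0 - ε 2) * (c 0 - c 1)
  have hU : C d * (4 * G ^ 3) = C α * M ^ 2 := by
    simp only [d, α, C_mul, C_sub]
    linear_combination (C (c 1) - C (c 2)) * hε 0 - (C (c 0) - C (c 2)) * hε 1 +
      (C (c 0) - C (c 1)) * hε 2
  have hα : α ≠ 0 := fun e => by
    rw [e, C_0, zero_mul] at hU
    exact mul_ne_zero (C_ne_zero.2 hd) (mul_ne_zero (by norm_num) (pow_ne_zero 3 hG)) hU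
  have hM : M ^ 2 = C (4 * d / α) * G ^ 3 := by
    refine mul_left_cancel₀ (C_ne_zero.2 hα) ?_
    rw [← hU, ← mul_assoc (C α), ← C_mul, mul_div_cancel₀ _ hα]
    simp only [d, C_mul, C_ofNat]
    ring
  set m := 4 * d / α
  -- the linear term
  set β := ((ε 0 - ε 1) / (c 0 - c 1) * m - 4 * (c 0 + c 1)) / 12 with hβ
  have hZ : Z = C β * G := by
    refine mul_left_cancel₀ (mul_ne_zero (C_ne_zero.2 (mul_ne_zero h01 (by norm_num : (12 : k) ≠ 0)))
      (pow_ne_zero 2 hG)) ?_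
    have e : (c 0 - c 1) * 12 * β = (ε 0 - ε 1) * m - 4 * (c 0 ^ 2 - c 1 ^ 2) := by
      rw [hβ]; field_simp; ring
    have e' : C (c 0 - c 1) * 12 * C β = (C (ε 0) - C (ε 1)) * C m - 4 * (C (c 0) ^ 2 - C (c 1) ^ 2) := by
      have := congrArg (C : k → k[X]) e
      simpa [C_mul, C_sub, C_pow, C_ofNat] using this
    simp only [C_mul, C_sub, C_ofNat] at e' ⊢
    linear_combination hε 0 - hε 1 + (C (ε 0) - C (ε 1)) * hM - G ^ 3 * e'
  -- the constant term
  suffices hκμ : ∃ κ μ : k, a = C κ * G ^ 2 ∧ b = C μ * G ^ 3 by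
    obtain ⟨κ, μ, h1, h2⟩ := hκμ
    have hm : m ≠ 0 := div_ne_zero (mul_ne_zero (by norm_num) hd) hα
    obtain ⟨R, rfl⟩ := (IsIntegrallyClosed.pow_dvd_pow_iff (n := 2) two_ne_zero).1
      (show G ^ 2 ∣ M ^ 2 from ⟨C m * G, by rw [hM]; ring⟩)
    have hR : R ^ 2 = C m * G := mul_left_cancel₀ (pow_ne_zero 2 hG) (by linear_combination hM)
    have hG' : G = C m⁻¹ * R ^ 2 := by
      rw [hR, ← mul_assoc, ← C_mul, inv_mul_cancel₀ hm, C_1, one_mul]
    refine ⟨R, κ * (m⁻¹) ^ 2, μ * (m⁻¹) ^ 3, fun e => hG (by rw [hG', e]; ring), ?_, ?_⟩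
    · rw [h1, hG', C_mul, C_pow]; ring
    · rw [h2, hG', C_mul, C_pow]; ring
  refine ⟨ε 0 * m - c 0 ^ 2 * 4 - c 0 * 12 * β - 12 * β ^ 2,
    γ * m - 4 * β ^ 3 - (ε 0 * m - c 0 ^ 2 * 4 - c 0 * 12 * β - 12 * β ^ 2) * β, ?_⟩
  have ha : a = C (ε 0 * m - c 0 ^ 2 * 4 - c 0 * 12 * β - 12 * β ^ 2) * G ^ 2 := by
    refine mul_right_cancel₀ hG ?_
    simp only [C_mul, C_sub, C_pow, C_ofNat]
    have := hε 0
    rw [hZ, hM] at this
    linear_combination this
  refine ⟨ha, ?_⟩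
  rw [hZ, hM, ha] at h
  simp only [C_mul, C_sub, C_pow, C_ofNat] at h ⊢
  linear_combination -h

/-- **Boundedly many solutions.** -/
theorem card_solutions_le [IsAlgClosed k] {a b : k[X]}
    (hnd : ¬∃ (R : k[X]) (κ μ : k), R ≠ 0 ∧ a = C κ * R ^ 4 ∧ b = C μ * R ^ 6) (S : Finset k)
    (D : ℕ) (Zs : Finset k[X])
    (hZs : ∀ Z ∈ Zs, Z.natDegree ≤ D ∧ ∃ H : k[X], H ≠ 0 ∧ H.natDegree ≤ D ∧
      H ^ 2 = 4 * Z ^ 3 + a * Z + b ∧ ∀ t, H.IsRoot t → t ∈ S) :
    Zs.card ≤ 3 * ((D + 1) ^ S.card + 1) * (D + 1) ^ S.card := by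
  choose! hdeg H hH0 hHdeg hH2 hHroot using hZs
  set nrm : k[X] → k[X] := fun Z => H Z * C (H Z).leadingCoeff⁻¹
  have hnrm : ∀ Z ∈ Zs, nrm Z ∈ monicsWith S D := fun Z hZ => by
    refine mem_monicsWith (monic_mul_leadingCoeff_inv (hH0 Z hZ))
      ((natDegree_mul_C_le _ _).trans (hHdeg Z hZ)) fun t ht => hHroot Z hZ t ?_
    simpa [nrm, IsRoot, leadingCoeff_ne_zero.2 (hH0 Z hZ)] using ht
  set g : k[X] → k := fun Z => (H Z).leadingCoeff ^ 2
  have hg : ∀ Z ∈ Zs, C (g Z) * nrm Z ^ 2 = 4 * Z ^ 3 + a * Z + b := fun Z hZ => by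
    rw [← hH2 Z hZ]
    simp only [g, nrm, mul_pow, ← C_pow]
    rw [mul_left_comm, ← C_mul, ← mul_pow, mul_inv_cancel₀ (leadingCoeff_ne_zero.2 (hH0 Z hZ)),
      one_pow, C_1, mul_one]
  refine (Finset.card_le_mul_card_image Zs (3 * ((D + 1) ^ S.card + 1)) fun M hM => ?_).trans
    (Nat.mul_le_mul_left _ ((Finset.card_le_card (Finset.image_subset_iff.2 hnrm)).trans
      (card_monicsWith S D)))
  obtain ⟨Z₁, hZ₁, rfl⟩ := Finset.mem_image.1 hM
  set F := Zs.filter fun Z => nrm Z = nrm Z₁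
  set ψ : k[X] → Option k[X] := fun Z =>
    if g Z = g Z₁ then none else some ((Z - Z₁) * C (Z - Z₁).leadingCoeff⁻¹)
  have hmem : ∀ {Z}, Z ∈ F → Z ∈ Zs ∧ C (g Z) * nrm Z₁ ^ 2 = 4 * Z ^ 3 + a * Z + b := fun hZ => by
    obtain ⟨h1, h2⟩ := Finset.mem_filter.1 hZ
    exact ⟨h1, h2 ▸ hg _ h1⟩
  have hne : ∀ {Z}, Z ∈ F → g Z ≠ g Z₁ → Z - Z₁ ≠ 0 := fun _ h e => h (by rw [sub_eq_zero.1 e])
  have himg : ∀ Z ∈ F, ψ Z ∈ Finset.insertNone (monicsWith S D) := fun Z hZ => by
    obtain ⟨hZs', hZe⟩ := hmem hZ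
    simp only [ψ]
    split_ifs with hgg
    · exact Finset.none_mem_insertNone
    refine Finset.some_mem_insertNone.2 (mem_monicsWith (monic_mul_leadingCoeff_inv (hne hZ hgg))
      ((natDegree_mul_C_le _ _).trans ((natDegree_sub_le _ _).trans
        (max_le (hdeg Z hZs') (hdeg Z₁ hZ₁)))) fun t ht => hHroot Z₁ hZ₁ t ?_)
    have hz : (Z - Z₁).eval t = 0 := by
      simpa [IsRoot, leadingCoeff_ne_zero.2 (hne hZ hgg)] using ht
    have h0 : (g Z - g Z₁) * (nrm Z₁).eval t ^ 2 = 0 := by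
      have h1 := congrArg (Polynomial.eval t) hZe
      have h2 := congrArg (Polynomial.eval t) (hg Z₁ hZ₁)
      rw [eval_sub, sub_eq_zero] at hz
      simp only [eval_mul, eval_C, eval_pow, eval_add, eval_ofNat, hz] at h1 h2
      rw [sub_mul, h1, h2, sub_self]
    have h3 := (pow_eq_zero_iff two_ne_zero).1 ((mul_eq_zero.1 h0).resolve_left (sub_ne_zero.2 hgg))
    simpa [nrm, IsRoot, leadingCoeff_ne_zero.2 (hH0 Z₁ hZ₁)] using h3
  refine (Finset.card_le_mul_card_image F 3 fun o ho => ?_).trans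
    (Nat.mul_le_mul_left 3 ((Finset.card_le_card (Finset.image_subset_iff.2 himg)).trans
      ((Finset.card_insertNone _).le.trans (Nat.add_le_add_right (card_monicsWith S D) 1))))
  cases o with
  | none =>
    set poly : k[X][X] := Cubic.toPoly ⟨4, 0, a, b - C (g Z₁) * nrm Z₁ ^ 2⟩
    have hp : poly.natDegree = 3 := Cubic.natDegree_of_a_ne_zero (by norm_num)
    refine (card_le_degree_of_subset_roots (p := poly) fun Z hZ => ?_).trans hp.le
    obtain ⟨hZF, hZψ⟩ := Finset.mem_filter.1 hZ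
    have hgg : g Z = g Z₁ := by
      by_contra h
      simp [ψ, h] at hZψ
    refine (mem_roots fun e => by rw [e, natDegree_zero] at hp; exact absurd hp (by norm_num)).2 ?_
    have := (hmem hZF).2
    rw [hgg] at this
    simp [poly, IsRoot, Cubic.toPoly]
    linear_combination -this
  | some G =>
    by_contra hcard
    push Not at hcard
    obtain ⟨e, he⟩ : ∃ e : Fin 3 ↪ k[X], ∀ i, e i ∈ F.filter fun Z => ψ Z = some G := by
      obtain ⟨e⟩ := Function.Embedding.nonempty_of_card_le (α := Fin 3)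
        (β := {Z // Z ∈ F.filter fun Z => ψ Z = some G}) (by simp; omega)
      exact ⟨e.trans (Function.Embedding.subtype _), fun i => (e i).2⟩
    have hG : ∀ i, g (e i) ≠ g Z₁ ∧ (e i - Z₁) * C (e i - Z₁).leadingCoeff⁻¹ = G := fun i => by
      have := (Finset.mem_filter.1 (he i)).2
      simp only [ψ] at this
      split_ifs at this with h
      exact ⟨h, Option.some.inj this⟩
    have hF : ∀ i, e i ∈ F := fun i => (Finset.mem_filter.1 (he i)).1
    have hlc : ∀ i, (e i - Z₁).leadingCoeff ≠ 0 := fun i =>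
      leadingCoeff_ne_zero.2 (hne (hF i) (hG i).1)
    have hrep : ∀ i, e i = Z₁ + C (e i - Z₁).leadingCoeff * G := fun i => by
      rw [← (hG i).2, mul_left_comm, ← C_mul, mul_inv_cancel₀ (hlc i), C_1, mul_one]; ring
    have hG0 : G ≠ 0 := (hG 0).2 ▸ mul_ne_zero (hne (hF 0) (hG 0).1) (C_ne_zero.2 (inv_ne_zero (hlc 0)))
    refine hnd (degenerate_of_three hG0 (hg Z₁ hZ₁)
      (c := fun i => (e i - Z₁).leadingCoeff) (fun i j h => e.injective (by
        simp only at h; rw [hrep i, hrep j, h])) hlc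
      fun i => ⟨g (e i), by rw [← hrep i]; exact (hmem (hF i)).2⟩)

end FA.LangNeron
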