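import Fermat.Agent.LangNeron.Pencil
import Fermat.Agent.NeronSpecialisation.GaloisDescent
import Mathlib.FieldTheory.IsAlgClosed.AlgebraicClosure

/-!
# Curves over `k(T)` coming from `k`

An equation over `k[T]` gives a constant curve iff `c₄` and `c₆` are constants times the fourth
and sixth power of one polynomial; this does not change with larger constants. Such a curve has
only constant points.
-/

set_option autoImplicit false
set_option linter.style.haveILetI false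
set_option linter.unusedSectionVars false

noncomputable section

open WeierstrassCurve Polynomial
open FA.NeronSpecialisation
open FA.FunctionFieldRank (pointMap pointMap_some pointMap_injective)
open scoped Classical

namespace FA.LangNeron

variable {k : Type*} [Field k]

/-- The equation gives a constant curve. -/
def IsSplit (W : WeierstrassCurve k[X]) : Prop :=
  ∃ (R : k[X]) (κ μ : k), W.c₄ = C κ * R ^ 4 ∧ W.c₆ = C μ * R ^ 6

theorem relation_of_scaled {W : WeierstrassCurve k[X]} {e R : k[X]} {κ μ : k}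
    (h4 : W.c₄ * e ^ 4 = C κ * R ^ 4) (h6 : W.c₆ * e ^ 6 = C μ * R ^ 6) :
    (1728 : k[X]) * W.Δ * e ^ 12 = C (κ ^ 3 - μ ^ 2) * R ^ 12 := by
  rw [W.c_relation, C_sub, C_pow, C_pow]
  linear_combination
    ((W.c₄ * e ^ 4) ^ 2 + W.c₄ * e ^ 4 * (C κ * R ^ 4) + (C κ * R ^ 4) ^ 2) * h4 -
      (W.c₆ * e ^ 6 + C μ * R ^ 6) * h6

variable [CharZero k]

theorem ne_zero_of_scaled {W : WeierstrassCurve k[X]} (hW : W.Δ ≠ 0) {e R : k[X]} (he : e ≠ 0)
    {κ μ : k} (h4 : W.c₄ * e ^ 4 = C κ * R ^ 4) (h6 : W.c₆ * e ^ 6 = C μ * R ^ 6) :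
    κ ^ 3 - μ ^ 2 ≠ 0 ∧ R ≠ 0 := by
  have h := relation_of_scaled h4 h6
  have h0 : C (κ ^ 3 - μ ^ 2) * R ^ 12 ≠ 0 :=
    h ▸ mul_ne_zero (mul_ne_zero (by norm_num) hW) (pow_ne_zero 12 he)
  exact ⟨fun e' => h0 (by rw [e', C_0, zero_mul]), fun e' => h0 (by rw [e', zero_pow, mul_zero]; simp)⟩

/-- Denominators cancel. -/
theorem isSplit_of_scaled {W : WeierstrassCurve k[X]} (hW : W.Δ ≠ 0) {e R : k[X]} (he : e ≠ 0)
    {κ μ : k} (h4 : W.c₄ * e ^ 4 = C κ * R ^ 4) (h6 : W.c₆ * e ^ 6 = C μ * R ^ 6) : IsSplit W := by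
  obtain ⟨hρ, -⟩ := ne_zero_of_scaled hW he h4 h6
  obtain ⟨R', rfl⟩ := (IsIntegrallyClosed.pow_dvd_pow_iff (n := 12) (by norm_num)).1
    ((isUnit_C.2 (isUnit_iff_ne_zero.2 hρ)).dvd_mul_left.1
      (Dvd.intro_left _ (relation_of_scaled h4 h6)))
  exact ⟨R', κ, μ, mul_right_cancel₀ (pow_ne_zero 4 he) (by rw [h4]; ring),
    mul_right_cancel₀ (pow_ne_zero 6 he) (by rw [h6]; ring)⟩

/-- A non-constant invariant excludes it. -/
theorem not_isSplit_of_not_const {W : WeierstrassCurve k[X]} (hW : W.Δ ≠ 0)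
    (hj : ¬∃ c : k, W.c₄ ^ 3 = C c * W.Δ) : ¬IsSplit W := by
  rintro ⟨R, κ, μ, h4, h6⟩
  have h4' : W.c₄ * 1 ^ 4 = C κ * R ^ 4 := by rw [one_pow, mul_one, h4]
  have h6' : W.c₆ * 1 ^ 6 = C μ * R ^ 6 := by rw [one_pow, mul_one, h6]
  obtain ⟨hρ, -⟩ := ne_zero_of_scaled hW one_ne_zero h4' h6'
  have hΔ := relation_of_scaled h4' h6'
  have e3 : C (κ ^ 3 / (κ ^ 3 - μ ^ 2)) * C (κ ^ 3 - μ ^ 2) = C κ ^ 3 := by
    rw [← C_mul, div_mul_cancel₀ _ hρ, C_pow]
  refine hj ⟨1728 * (κ ^ 3 / (κ ^ 3 - μ ^ 2)), ?_⟩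
  rw [h4, C_mul, C_ofNat]
  linear_combination -C (κ ^ 3 / (κ ^ 3 - μ ^ 2)) * hΔ - R ^ 12 * e3

/-- **It does not change with algebraic constants.** -/
theorem isSplit_of_map {W : WeierstrassCurve k[X]} (hW : W.Δ ≠ 0)
    (h : IsSplit (W.map (mapRingHom (algebraMap k (AlgebraicClosure k))))) : IsSplit W := by
  set ψ := algebraMap k (AlgebraicClosure k)
  obtain ⟨R, κ, μ, h4, h6⟩ := h
  set W' := W.map (mapRingHom ψ) with hW'def
  have hΔ' : W'.Δ = W.Δ.map ψ := by rw [hW'def, WeierstrassCurve.map_Δ, coe_mapRingHom]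
  have hW' : W'.Δ ≠ 0 := hΔ' ▸ (Polynomial.map_ne_zero_iff ψ.injective).2 hW
  have h4' : W'.c₄ * 1 ^ 4 = C κ * R ^ 4 := by rw [one_pow, mul_one, h4]
  have h6' : W'.c₆ * 1 ^ 6 = C μ * R ^ 6 := by rw [one_pow, mul_one, h6]
  obtain ⟨hρ, hR⟩ := ne_zero_of_scaled hW' one_ne_zero h4' h6'
  have hΔ := relation_of_scaled h4' h6'
  rw [one_pow, mul_one, hΔ'] at hΔ
  -- the monic polynomial
  set P := R * C R.leadingCoeff⁻¹ with hP
  have hmon : P.Monic := monic_mul_leadingCoeff_inv hR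
  have hRP : R = P * C R.leadingCoeff := by
    rw [hP, mul_assoc, ← C_mul, inv_mul_cancel₀ (leadingCoeff_ne_zero.2 hR), C_1, mul_one]
  have hP12 : P ^ 12 = (C (W.Δ.leadingCoeff)⁻¹ * W.Δ).map ψ := by
    have hl := congrArg Polynomial.leadingCoeff hΔ
    rw [← C_ofNat, leadingCoeff_mul, leadingCoeff_mul, leadingCoeff_C, leadingCoeff_C,
      leadingCoeff_pow, leadingCoeff_map] at hl
    rw [hRP, mul_pow, ← C_pow, ← mul_assoc, mul_comm (C (κ ^ 3 - μ ^ 2)), mul_assoc, ← C_mul, ← hl,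
      C_mul, C_ofNat, ← mul_assoc, mul_comm (P ^ 12), mul_assoc] at hΔ
    have e := mul_left_cancel₀ (by norm_num : (1728 : (AlgebraicClosure k)[X]) ≠ 0) hΔ
    rw [Polynomial.map_mul, map_C, e, map_inv₀, mul_comm, mul_assoc, ← C_mul,
      mul_inv_cancel₀ ((map_ne_zero ψ).2 (leadingCoeff_ne_zero.2 hW)), C_1, mul_one]
  obtain ⟨P₀, hP₀⟩ : ∃ P₀ : k[X], P₀.map ψ = P := by
    refine (Polynomial.mem_lifts (f := ψ) P).1 ((Polynomial.lifts_iff_coeff_lifts _).2 fun i => ?_)
    refine (InfiniteGalois.mem_range_algebraMap_iff_fixed _).2 fun σ => ?_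
    set s := σ.toRingEquiv.toRingHom
    have hs : s.comp ψ = ψ := RingHom.ext fun q => σ.commutes q
    have e : (P.map s) ^ 12 = P ^ 12 := by
      rw [← Polynomial.map_pow, hP12, Polynomial.map_map, hs]
    have hPs : P.map s = P := eq_of_monic_of_associated (hmon.map s) hmon (associated_of_dvd_dvd
      ((IsIntegrallyClosed.pow_dvd_pow_iff (n := 12) (by norm_num)).1 e.dvd)
      ((IsIntegrallyClosed.pow_dvd_pow_iff (n := 12) (by norm_num)).1 e.symm.dvd))
    conv_rhs => rw [← hPs, coeff_map]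
    rfl
  have hmon₀ : P₀.Monic := Polynomial.monic_of_injective ψ.injective (hP₀ ▸ hmon)
  have key : ∀ (c : k[X]) (j : ℕ) (ν : AlgebraicClosure k), c.map ψ = C ν * R ^ j →
      ∃ ν₀ : k, c = C ν₀ * P₀ ^ j := fun c j ν hc => by
    rw [hRP, ← hP₀, mul_pow, ← C_pow, mul_comm ((P₀.map ψ) ^ j), ← mul_assoc, ← C_mul,
      ← Polynomial.map_pow] at hc
    refine ⟨c.coeff (P₀ ^ j).natDegree, Polynomial.map_injective ψ ψ.injective ?_⟩
    have hcoef := congrArg (fun p => p.coeff (P₀ ^ j).natDegree) hc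
    simp only [coeff_map, coeff_C_mul, (hmon₀.pow j).coeff_natDegree, map_one, mul_one] at hcoef
    rw [Polynomial.map_mul, map_C, hcoef, hc]
  obtain ⟨κ₀, hκ⟩ := key W.c₄ 4 κ (by rw [← h4, hW'def, WeierstrassCurve.map_c₄, coe_mapRingHom])
  obtain ⟨μ₀, hμ⟩ := key W.c₆ 6 μ (by rw [← h6, hW'def, WeierstrassCurve.map_c₆, coe_mapRingHom])
  exact ⟨P₀, κ₀, μ₀, hκ, hμ⟩

/-- **It says that the curve is constant.** -/
theorem isSplit_iff {W : WeierstrassCurve k[X]} (hW : W.Δ ≠ 0) : IsSplit W ↔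
    ∃ (E₀ : WeierstrassCurve k) (C₀ : VariableChange (RatFunc k)),
      C₀ • genW W = E₀.map (algebraMap k (RatFunc k)) := by
  set g := algebraMap k[X] (RatFunc k)
  have hC : ∀ c : k, algebraMap k (RatFunc k) c = g (C c) := fun c => by
    rw [IsScalarTower.algebraMap_apply k k[X] (RatFunc k), Polynomial.algebraMap_eq]
  constructor
  · rintro ⟨R, κ, μ, h4, h6⟩
    have hR : g R ≠ 0 := RatFunc.algebraMap_ne_zero
      (ne_zero_of_scaled hW one_ne_zero (e := 1) (R := R) (κ := κ) (μ := μ)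
        (by rw [one_pow, mul_one, h4]) (by rw [one_pow, mul_one, h6])).2
    set E := genW W
    refine ⟨⟨0, 0, 0, -27 * κ, -54 * μ⟩, ⟨Units.mk0 (g R) hR, 0, 0, 0⟩ *
      ⟨Units.mk0 (1 / 6 : RatFunc k) (by norm_num), -E.b₂ / 12, -E.a₁ / 2,
        E.a₁ * E.b₂ / 24 - E.a₃ / 2⟩, ?_⟩
    have h4' : E.c₄ = algebraMap k (RatFunc k) κ * g R ^ 4 := by
      rw [WeierstrassCurve.map_c₄, h4, map_mul, map_pow, hC]
    have h6' : E.c₆ = algebraMap k (RatFunc k) μ * g R ^ 6 := by
      rw [WeierstrassCurve.map_c₆, h6, map_mul, map_pow, hC]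
    simp only [WeierstrassCurve.c₄, WeierstrassCurve.c₆, WeierstrassCurve.b₂, WeierstrassCurve.b₄,
      WeierstrassCurve.b₆] at h4' h6'
    rw [mul_smul]
    ext <;> simp only [variableChange_a₁, variableChange_a₂, variableChange_a₃, variableChange_a₄,
      variableChange_a₆, Units.val_inv_eq_inv_val, Units.val_mk0, WeierstrassCurve.map, map_zero,
      map_mul, map_neg, map_ofNat, WeierstrassCurve.b₂]
    all_goals field_simp
    all_goals first
      | ring1
      | linear_combination -186624 * h4'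
      | linear_combination -214990848 * h6'
  · rintro ⟨E₀, C₀, h⟩
    set u : RatFunc k := (C₀.u : RatFunc k)
    have hu : u ≠ 0 := C₀.u.ne_zero
    have hden : g u.denom ≠ 0 := RatFunc.algebraMap_ne_zero u.denom_ne_zero
    have hnum : u * g u.denom = g u.num := (eq_div_iff hden).1 (RatFunc.num_div_denom u).symm
    refine isSplit_of_scaled hW u.denom_ne_zero (R := u.num) (κ := E₀.c₄) (μ := E₀.c₆)
      (RatFunc.algebraMap_injective k ?_) (RatFunc.algebraMap_injective k ?_)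
    · have h' := congrArg WeierstrassCurve.c₄ h
      rw [variableChange_c₄, WeierstrassCurve.map_c₄, WeierstrassCurve.map_c₄,
        Units.val_inv_eq_inv_val, inv_pow, inv_mul_eq_iff_eq_mul₀ (pow_ne_zero _ hu), hC] at h'
      rw [map_mul, map_mul, map_pow, map_pow, h', ← hnum]
      ring
    · have h' := congrArg WeierstrassCurve.c₆ h
      rw [variableChange_c₆, WeierstrassCurve.map_c₆, WeierstrassCurve.map_c₆,
        Units.val_inv_eq_inv_val, inv_pow, inv_mul_eq_iff_eq_mul₀ (pow_ne_zero _ hu), hC] at h'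
      rw [map_mul, map_mul, map_pow, map_pow, h', ← hnum]
      ring

/-- **The coordinates of a point on a constant curve.** -/
theorem exists_coords {W : WeierstrassCurve k[X]} (hW : W.Δ ≠ 0) {R : k[X]} {κ μ : k}
    (h4 : W.c₄ = C κ * R ^ 4) (h6 : W.c₆ = C μ * R ^ 6) {x y : RatFunc k}
    (h : (genW W).toAffine.Equation x y) :
    ∃ c d : k, x + (genW W).b₂ / 12 = algebraMap k[X] (RatFunc k) (C c * R ^ 2) ∧
      2 * y + (genW W).a₁ * x + (genW W).a₃ = algebraMap k[X] (RatFunc k) (C d * R ^ 3) := by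
  obtain ⟨hρ, hR0⟩ := ne_zero_of_scaled hW one_ne_zero (e := 1) (R := R) (κ := κ) (μ := μ)
    (by rw [one_pow, mul_one, h4]) (by rw [one_pow, mul_one, h6])
  set g := algebraMap k[X] (RatFunc k)
  have hC : ∀ c : k, algebraMap k (RatFunc k) c = g (C c) := fun c => by
    rw [IsScalarTower.algebraMap_apply k k[X] (RatFunc k), Polynomial.algebraMap_eq]
  have hR : g R ≠ 0 := RatFunc.algebraMap_ne_zero hR0
  have hb := Affine.equation_iff x y |>.1 h
  set X₀ := (x + (genW W).b₂ / 12) / g R ^ 2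
  set Y₀ := (2 * y + (genW W).a₁ * x + (genW W).a₃) / g R ^ 3
  have hc4 : (genW W).c₄ = g (C κ) * g R ^ 4 := by
    rw [WeierstrassCurve.map_c₄, h4, map_mul, map_pow]
  have hc6 : (genW W).c₆ = g (C μ) * g R ^ 6 := by
    rw [WeierstrassCurve.map_c₆, h6, map_mul, map_pow]
  have hq : (2 * y + (genW W).a₁ * x + (genW W).a₃) ^ 2 = 4 * (x + (genW W).b₂ / 12) ^ 3 -
      (genW W).c₄ * (x + (genW W).b₂ / 12) / 12 - (genW W).c₆ / 216 := by
    simp only [WeierstrassCurve.c₄, WeierstrassCurve.c₆, WeierstrassCurve.b₂, WeierstrassCurve.b₄,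
      WeierstrassCurve.b₆]
    linear_combination 4 * hb
  have heq : Y₀ ^ 2 = 4 * X₀ ^ 3 + algebraMap k (RatFunc k) (-κ / 12) * X₀ +
      algebraMap k (RatFunc k) (-μ / 216) := by
    rw [map_div₀, map_div₀, map_neg, map_neg, map_ofNat, map_ofNat, hC, hC]
    simp only [X₀, Y₀, div_pow, hq, hc4, hc6]
    field_simp
    ring
  set ψ := algebraMap k (AlgebraicClosure k)
  have hmap : ∀ c : k, constMap ψ (algebraMap k (RatFunc k) c) =
      algebraMap (AlgebraicClosure k) (RatFunc (AlgebraicClosure k)) (ψ c) := fun c => by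
    rw [hC, constMap_algebraMap, map_C,
      IsScalarTower.algebraMap_apply (AlgebraicClosure k) (AlgebraicClosure k)[X]
        (RatFunc (AlgebraicClosure k)), Polynomial.algebraMap_eq]
  have hdeg := degree_eq_zero_of_cubic (k := AlgebraicClosure k) (a := ψ (-κ / 12)) (b := ψ (-μ / 216))
    (x := constMap ψ X₀) (y := constMap ψ Y₀) (by
      rw [← map_pow, ← map_pow, ← map_ofNat ψ 27, ← map_mul, ← map_add]
      exact (map_ne_zero ψ).2 fun e => hρ (by linear_combination -1728 * e)) (by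
      rw [← hmap, ← hmap, ← map_pow, heq, map_add, map_add, map_mul, map_mul, map_pow, map_ofNat])
  rw [num_constMap, denom_constMap, natDegree_map, natDegree_map] at hdeg
  obtain ⟨hn, hd⟩ := hdeg
  obtain ⟨c, hc⟩ : ∃ c, X₀ = g (C c) := ⟨X₀.num.coeff 0, by
    rw [← eq_C_of_natDegree_eq_zero hn]
    conv_lhs => rw [← RatFunc.num_div_denom X₀, eq_one_of_monic_natDegree_zero X₀.monic_denom hd,
      map_one, div_one]⟩
  have hY2 : Y₀ ^ 2 = g (C (4 * c ^ 3 + -κ / 12 * c + -μ / 216)) := by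
    rw [heq, hc, hC, hC]
    simp only [map_add, map_mul, map_pow, map_ofNat]
  obtain ⟨H, hH⟩ := IsIntegrallyClosed.exists_algebraMap_eq_of_isIntegral_pow (R := k[X])
    (x := Y₀) two_pos (by rw [hY2]; exact isIntegral_algebraMap)
  have hH2 : H ^ 2 = C (4 * c ^ 3 + -κ / 12 * c + -μ / 216) :=
    RatFunc.algebraMap_injective k (by rw [map_pow, hH, hY2])
  have hH0 : H.natDegree = 0 := by
    have := congrArg Polynomial.natDegree hH2
    rw [natDegree_pow, natDegree_C] at this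
    omega
  refine ⟨c, H.coeff 0, ?_, ?_⟩
  · rw [map_mul, map_pow, ← hc]; exact (div_mul_cancel₀ _ (pow_ne_zero 2 hR)).symm
  · rw [map_mul, map_pow, ← eq_C_of_natDegree_eq_zero hH0, hH]
    exact (div_mul_cancel₀ _ (pow_ne_zero 3 hR)).symm

/-- **On a constant curve specialisation is injective at every smooth fibre.** -/
theorem specW_injective_of_isSplit {W : WeierstrassCurve k[X]} (hW : W.Δ ≠ 0) (hs : IsSplit W)
    {t : k} (ht : (fibreW W t).Δ ≠ 0) : Function.Injective (specW W ht) := by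
  obtain ⟨R, κ, μ, h4, h6⟩ := hs
  refine (injective_iff_map_eq_zero _).2 fun P hP => ?_
  rcases P with _ | ⟨x, y, h⟩
  · rfl
  obtain ⟨c, d, hc, -⟩ := exists_coords hW h4 h6 h.1
  have h12 : (12 : RatFunc k)⁻¹ = algebraMap k[X] (RatFunc k) (C (12 : k)⁻¹) := by
    rw [← Polynomial.algebraMap_eq, ← IsScalarTower.algebraMap_apply, map_inv₀, map_ofNat]
  have hx : x ∈ valueRing t := by
    have e : x = algebraMap k[X] (RatFunc k) (C c * R ^ 2 - W.b₂ * C (12 : k)⁻¹) := by
      rw [map_sub, ← hc, map_mul, ← h12, WeierstrassCurve.map_b₂, div_eq_mul_inv]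
      ring
    rw [e]
    exact algebraMap_mem_valueRing t _
  obtain ⟨hy, h', e⟩ := specW_some_of_mem ht h hx
  rw [e] at hP
  exact absurd hP (Affine.Point.some_ne_zero _)

/-- **A constant curve has only constant points.** -/
theorem pointMap_bijective (E₀ : WeierstrassCurve k) [E₀.IsElliptic] :
    Function.Bijective (pointMap (algebraMap k (RatFunc k)) (W := E₀) rfl) := by
  refine ⟨pointMap_injective _ _, fun P => ?_⟩
  rcases P with _ | ⟨x, y, h⟩
  · exact ⟨0, rfl⟩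
  let W := E₀.map (Polynomial.C : k →+* k[X])
  have hC : ∀ r : k, algebraMap k[X] (RatFunc k) (C r) = (algebraMap k (RatFunc k)) r := fun r =>
    ((IsScalarTower.algebraMap_apply k k[X] (RatFunc k) r).trans
      (congrArg _ (congrFun (congrArg _ Polynomial.algebraMap_eq) r))).symm
  have hgen : genW W = E₀.map (algebraMap k (RatFunc k)) :=
    (E₀.map_map (Polynomial.C : k →+* k[X]) (algebraMap k[X] (RatFunc k))).trans
      (congrArg E₀.map (RingHom.ext hC))
  have hW : W.Δ ≠ 0 := fun e => E₀.isUnit_Δ.ne_zero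
    (Polynomial.C_eq_zero.1 ((E₀.map_Δ (Polynomial.C : k →+* k[X])).symm.trans e))
  obtain ⟨c, d, hc, hd⟩ := exists_coords hW (R := 1) (κ := E₀.c₄) (μ := E₀.c₆)
    ((E₀.map_c₄ _).trans (by rw [one_pow, mul_one]))
    ((E₀.map_c₆ _).trans (by rw [one_pow, mul_one])) (x := x) (y := y) (hgen ▸ h.1)
  rw [hgen, one_pow, mul_one, hC, WeierstrassCurve.map_b₂] at hc
  rw [hgen, one_pow, mul_one, hC] at hd
  change 2 * y + (algebraMap k (RatFunc k)) E₀.a₁ * x + (algebraMap k (RatFunc k)) E₀.a₃ = (algebraMap k (RatFunc k)) d at hd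
  have hx : x = (algebraMap k (RatFunc k)) (c - E₀.b₂ / 12) := by
    rw [map_sub, map_div₀, map_ofNat]; linear_combination hc
  have hy : y = (algebraMap k (RatFunc k)) ((d - E₀.a₁ * (c - E₀.b₂ / 12) - E₀.a₃) / 2) := by
    rw [map_div₀, map_sub, map_sub, map_mul, map_ofNat, ← hx, eq_div_iff two_ne_zero]
    linear_combination hd
  subst hx hy
  exact ⟨.some _ _ ((E₀.toAffine.map_nonsingular (algebraMap k (RatFunc k)).injective _ _).1 h), rfl⟩

end FA.LangNeron
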