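import Fermat.Agent.LangNeron.Finiteness
import Fermat.Agent.LangNeron.Split
import Fermat.Agent.CallSilverman.Spec
import Fermat.Agent.NeronSpecialisation.GeneralSpec
import Mathlib.FieldTheory.IsAlgClosed.AlgebraicClosure

/-!
# Points all whose small multiples have bounded degree are torsion

Let `E` over `k(T)` be no constant curve. If `x (r P)` has degree at most `B` for all small `r`
then at most `B` smooth places are poles of these, so after one scaling `2 y + a₁ x + a₃` has all
roots in a fixed finite set, and there are boundedly many such points.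
-/

set_option autoImplicit false
set_option linter.style.haveILetI false
set_option linter.unusedSectionVars false

noncomputable section

open WeierstrassCurve Polynomial OnePoint
open FA.ArithmeticDynamics FA.CallSilverman
open FA.NeronSpecialisation
open FA.FunctionFieldRank (pointMap pointMap_some pointMap_injective)
open scoped Classical

namespace FA.LangNeron

variable {k : Type*} [Field k] [CharZero k]

/-- The completed square. -/
theorem completed_equation {R : Type*} [Field R] [CharZero R] (E : WeierstrassCurve R) {x y : R}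
    (h : E.toAffine.Equation x y) :
    (2 * y + E.a₁ * x + E.a₃) ^ 2 =
      4 * (x + E.b₂ / 12) ^ 3 - E.c₄ * (x + E.b₂ / 12) / 12 - E.c₆ / 216 := by
  rw [Affine.equation_iff] at h
  simp only [WeierstrassCurve.c₄, WeierstrassCurve.c₆, WeierstrassCurve.b₂, WeierstrassCurve.b₄,
    WeierstrassCurve.b₆]
  linear_combination 4 * h

theorem ptDeg_some {E : WeierstrassCurve (RatFunc k)} {x y : RatFunc k}
    (h : E.toAffine.Nonsingular x y) :
    ptDeg (toPoint (Affine.Point.some x y h).xRep) = max x.num.natDegree x.denom.natDegree := by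
  rw [Affine.Point.xRep_some, show toPoint ![x, (1 : RatFunc k)] = ↑x by simp [toPoint], ptDeg_coe]

/-- **Bounded multiples force torsion**, over an algebraically closed field. -/
theorem exists_bound_algClosed [IsAlgClosed k] {W : WeierstrassCurve k[X]} (hW : W.Δ ≠ 0)
    (hns : ¬IsSplit W) (B : ℕ) :
    ∃ N : ℕ, ∀ P : (genW W).toAffine.Point,
      (∀ r : ℕ, 1 ≤ r → r ≤ N → ptDeg (toPoint (r • P).xRep) ≤ B) →
        ∃ r : ℕ, 0 < r ∧ r ≤ 2 * N ∧ r • P = 0 := by
  haveI := genW_isElliptic hW
  set bad := W.Δ.roots.toFinset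
  set s₀ := bad.card + B
  set D := 3 * (B + W.b₂.natDegree + 2 * (s₀ * B)) + W.c₄.natDegree + W.c₆.natDegree + 10 * (s₀ * B)
  set M := 3 * ((D + 1) ^ s₀ + 1) * (D + 1) ^ s₀ + 1 with hMdef
  have hM1 : 1 ≤ 2 * M := by omega
  have hMN : 2 * M ≤ (2 * M) ^ (B + 1) := Nat.le_self_pow (Nat.succ_ne_zero B) _
  refine ⟨(2 * M) ^ (B + 1), fun P hP => ?_⟩
  by_contra hno
  push Not at hno
  set N := (2 * M) ^ (B + 1)
  -- the poles of the small multiples
  have hsmooth : ∀ {t : k}, t ∉ bad → (fibreW W t).Δ ≠ 0 := fun {t} h e => h (by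
    rw [fibreW, WeierstrassCurve.map_Δ] at e
    exact Multiset.mem_toFinset.2 ((mem_roots hW).2 e))
  set V : Finset k := (Finset.Icc 1 (2 * M)).biUnion fun r =>
    ((toPoint (r • P).xRep).elim (1 : k[X]) fun z => z.denom).roots.toFinset \ bad
  have hVspec : ∀ {t : k} (ht : t ∉ bad) {r : ℕ}, 1 ≤ r → r ≤ 2 * M →
      specW W (hsmooth ht) (r • P) = 0 → t ∈ V := by
    intro t ht r h1 h2 h
    refine Finset.mem_biUnion.2 ⟨r, Finset.mem_Icc.2 ⟨h1, h2⟩, Finset.mem_sdiff.2 ⟨?_, ht⟩⟩
    rcases hR : r • P with _ | ⟨x, y, hxy⟩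
    · exact absurd hR (hno r h1 (by omega))
    rw [hR] at h
    rw [Affine.Point.xRep_some, show toPoint ![x, (1 : RatFunc k)] = ↑x by simp [toPoint]]
    refine Multiset.mem_toFinset.2 ((mem_roots x.denom_ne_zero).2 ?_)
    by_contra hne
    obtain ⟨hy, h', hs⟩ := specW_some_of_mem (hsmooth ht) hxy (show x ∈ valueRing t from hne)
    rw [h] at hs
    exact Affine.Point.some_ne_zero _ hs.symm
  have hVcard : V.card ≤ B := by
    by_contra hlt
    obtain ⟨T, hTV, hTc⟩ := Finset.exists_subset_card_eq (Nat.succ_le_of_lt (not_le.1 hlt))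
    have hT : ∀ t ∈ T, ∃ r, ∃ ht : t ∉ bad, 1 ≤ r ∧ r ≤ 2 * M ∧
        specW W (hsmooth ht) (r • P) = 0 := by
      intro t ht
      obtain ⟨r, hr, htr⟩ := Finset.mem_biUnion.1 (hTV ht)
      obtain ⟨hroot, hb⟩ := Finset.mem_sdiff.1 htr
      refine ⟨r, hb, (Finset.mem_Icc.1 hr).1, (Finset.mem_Icc.1 hr).2, ?_⟩
      rcases hR : r • P with _ | ⟨x, y, hxy⟩
      · exact absurd hR (hno r (Finset.mem_Icc.1 hr).1 (by have := (Finset.mem_Icc.1 hr).2; omega))
      rw [hR, Affine.Point.xRep_some, show toPoint ![x, (1 : RatFunc k)] = ↑x by simp [toPoint]] at hroot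
      exact specW_some_of_notMem _ hxy fun hx => hx ((mem_roots x.denom_ne_zero).1
        (Multiset.mem_toFinset.1 hroot))
    choose! r hb hr1 hr2 hspec using hT
    set L := ∏ t ∈ T, r t
    have hL1 : 1 ≤ L := Finset.one_le_prod' fun t ht => hr1 t ht
    have hL2 : L ≤ N := (Finset.prod_le_pow_card T r (2 * M) hr2).trans_eq (by rw [hTc])
    have hdeg := hP L hL1 hL2
    rcases hR : L • P with _ | ⟨x, y, hxy⟩
    · exact hno L hL1 (by omega) hR
    rw [hR, ptDeg_some] at hdeg
    have hroots : T.card ≤ x.denom.natDegree := card_le_degree_of_subset_roots fun t ht => by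
      refine (mem_roots x.denom_ne_zero).2 ?_
      by_contra hne
      obtain ⟨hy, h', hs⟩ := specW_some_of_mem (hsmooth (hb t ht)) hxy
        (show x ∈ valueRing t from hne)
      obtain ⟨q, hq⟩ := Finset.dvd_prod_of_mem r ht
      have h0 : specW W (hsmooth (hb t ht)) (L • P) = 0 := by
        rw [show L = q * r t by rw [mul_comm]; exact hq, mul_nsmul', map_nsmul, hspec t ht,
          smul_zero]
      rw [hR, hs] at h0
      exact Affine.Point.some_ne_zero _ h0
    rw [hTc] at hroots
    exact absurd ((hroots.trans (le_max_right _ _)).trans hdeg) (by omega)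
  -- the scaling
  set S := bad ∪ V
  have hScard : S.card ≤ s₀ := (Finset.card_union_le _ _).trans (Nat.add_le_add_left hVcard _)
  set e : k[X] := ∏ s ∈ S, (X - Polynomial.C s) ^ B
  have he0 : e ≠ 0 := Finset.prod_ne_zero_iff.2 fun s _ => pow_ne_zero _ (X_sub_C_ne_zero s)
  have hedeg : e.natDegree ≤ s₀ * B := by
    refine (natDegree_prod_le _ _).trans ((Finset.sum_le_card_nsmul _ _ B fun s _ => ?_).trans ?_)
    · simp
    · simpa using Nat.mul_le_mul_right B hScard
  set a := -(Polynomial.C (12 : k)⁻¹ * W.c₄ * e ^ 4)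
  set b := -(Polynomial.C (216 : k)⁻¹ * W.c₆ * e ^ 6)
  have hnd : ¬∃ (R : k[X]) (κ μ : k), R ≠ 0 ∧ a = Polynomial.C κ * R ^ 4 ∧
      b = Polynomial.C μ * R ^ 6 := by
    rintro ⟨R, κ, μ, hR, ha, hb⟩
    refine hns (isSplit_of_scaled hW he0 (R := R) (κ := -12 * κ) (μ := -216 * μ) ?_ ?_)
    · rw [show -12 * κ = (-12 : k) * κ from rfl, C_mul, mul_assoc, ← ha]
      simp only [a, mul_neg, ← mul_assoc, ← C_mul]
      norm_num
    · rw [show -216 * μ = (-216 : k) * μ from rfl, C_mul, mul_assoc, ← hb]
      simp only [b, mul_neg, ← mul_assoc, ← C_mul]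
      norm_num
  set g := algebraMap k[X] (RatFunc k)
  have hg0 : ∀ {p : k[X]}, p ≠ 0 → g p ≠ 0 := fun hp => RatFunc.algebraMap_ne_zero hp
  -- the solutions
  have hsol : ∀ r ∈ Finset.Icc 1 M, ∃ (x y : RatFunc k) (h : (genW W).toAffine.Nonsingular x y)
      (Z : k[X]), r • P = .some x y h ∧ g Z = (x + (genW W).b₂ / 12) * g e ^ 2 ∧
        Z.natDegree ≤ D ∧ ∃ H : k[X], H ≠ 0 ∧ H.natDegree ≤ D ∧
          H ^ 2 = 4 * Z ^ 3 + a * Z + b ∧ ∀ t, H.IsRoot t → t ∈ S := by
    intro r hr
    obtain ⟨hr1, hr2⟩ := Finset.mem_Icc.1 hr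
    rcases hR : r • P with _ | ⟨x, y, hxy⟩
    · exact absurd hR (hno r hr1 (by omega))
    have hdeg := hP r hr1 (by omega)
    rw [hR, ptDeg_some] at hdeg
    have hden : ∀ t, x.denom.IsRoot t → t ∈ S := fun t ht => by
      by_cases htb : t ∈ bad
      · exact Finset.mem_union_left _ htb
      refine Finset.mem_union_right _ (hVspec htb hr1 (by omega) ?_)
      rw [hR]
      exact specW_some_of_notMem _ hxy fun hx => hx ht
    have hdvd : x.denom ∣ e := by
      refine (IsAlgClosed.splits x.denom).dvd_of_roots_le_roots x.denom_ne_zero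
        (Multiset.le_iff_count.2 fun t => ?_)
      by_cases ht : t ∈ x.denom.roots
      · refine ((Multiset.count_le_card _ _).trans ((card_roots' _).trans
          ((le_max_right _ _).trans hdeg))).trans ?_
        rw [count_roots]
        refine (le_rootMultiplicity_iff he0).2 ?_
        exact Finset.dvd_prod_of_mem (fun s => (X - Polynomial.C s) ^ B)
          (hden t (isRoot_of_mem_roots ht))
      · rw [Multiset.count_eq_zero.2 ht]; exact Nat.zero_le _
    obtain ⟨q, hq⟩ := hdvd
    set Z := x.num * q * e + Polynomial.C (12 : k)⁻¹ * W.b₂ * e ^ 2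
    have hb2 : (genW W).b₂ = g W.b₂ := WeierstrassCurve.map_b₂ W g
    have h12 : g (Polynomial.C (12 : k)⁻¹) = (12 : RatFunc k)⁻¹ := by
      refine eq_inv_of_mul_eq_one_left ?_
      rw [← map_ofNat g 12, ← map_mul, ← C_ofNat, ← C_mul, inv_mul_cancel₀ (by norm_num), C_1, map_one]
    have hx : x * g e = g (x.num * q) := by
      conv_lhs => rw [← RatFunc.num_div_denom x, hq]
      simp only [g, map_mul]
      field_simp [RatFunc.algebraMap_ne_zero (K := k) x.denom_ne_zero]
    have hZ : g Z = (x + (genW W).b₂ / 12) * g e ^ 2 := by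
      simp only [Z, map_add, map_mul, map_pow, h12, hb2]
      rw [add_mul, sq, ← mul_assoc x, hx, map_mul]
      ring
    have hqdeg : q.natDegree ≤ s₀ * B := (natDegree_le_of_dvd (Dvd.intro_left _ hq.symm) he0).trans hedeg
    have hnum : x.num.natDegree ≤ B := (le_max_left _ _).trans hdeg
    have hZdeg : Z.natDegree ≤ B + W.b₂.natDegree + 2 * (s₀ * B) := by
      refine (natDegree_add_le _ _).trans (max_le (natDegree_mul_le.trans
        ((Nat.add_le_add natDegree_mul_le le_rfl).trans (by omega))) (natDegree_mul_le.trans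
        ((Nat.add_le_add (natDegree_C_mul_le _ _) natDegree_pow_le).trans (by omega))))
    set η := 2 * y + (genW W).a₁ * x + (genW W).a₃ with hη
    have h216 : g (Polynomial.C (216 : k)⁻¹) = (216 : RatFunc k)⁻¹ := by
      refine eq_inv_of_mul_eq_one_left ?_
      rw [← map_ofNat g 216, ← map_mul, ← C_ofNat, ← C_mul, inv_mul_cancel₀ (by norm_num), C_1, map_one]
    have hsq : (η * g e ^ 3) ^ 2 = g (4 * Z ^ 3 + a * Z + b) := by
      simp only [a, b, map_add, map_mul, map_neg, map_pow, map_ofNat, hZ, h12, h216]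
      rw [show g W.c₄ = (genW W).c₄ from (WeierstrassCurve.map_c₄ W g).symm,
        show g W.c₆ = (genW W).c₆ from (WeierstrassCurve.map_c₆ W g).symm, mul_pow, hη,
        completed_equation (genW W) hxy.1]
      ring
    obtain ⟨H, hH⟩ := IsIntegrallyClosed.exists_algebraMap_eq_of_isIntegral_pow (R := k[X])
      (x := η * g e ^ 3) two_pos (by rw [hsq]; exact isIntegral_algebraMap)
    have hH2 : H ^ 2 = 4 * Z ^ 3 + a * Z + b := RatFunc.algebraMap_injective k (by
      rw [map_pow, hH, hsq])
    have hη0 : η ≠ 0 := fun h0 => hno (2 * r) (by omega) (by omega) (by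
      rw [mul_nsmul', hR, two_nsmul]
      refine Affine.Point.add_self_of_Y_eq ?_
      rw [Affine.negY]
      linear_combination h0)
    have hH0 : H ≠ 0 := fun h => by
      rw [h, map_zero, eq_comm, mul_eq_zero] at hH
      exact hH.elim hη0 (pow_ne_zero 3 (hg0 he0))
    have hHdeg : H.natDegree ≤ D := by
      have h1 : 2 * H.natDegree = (4 * Z ^ 3 + a * Z + b).natDegree := by rw [← hH2, natDegree_pow]
      have ha : a.natDegree ≤ W.c₄.natDegree + 4 * (s₀ * B) := by
        rw [natDegree_neg]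
        refine natDegree_mul_le.trans (Nat.add_le_add (natDegree_C_mul_le _ _) ?_)
        exact natDegree_pow_le.trans (Nat.mul_le_mul_left 4 hedeg)
      have hb : b.natDegree ≤ W.c₆.natDegree + 6 * (s₀ * B) := by
        rw [natDegree_neg]
        refine natDegree_mul_le.trans (Nat.add_le_add (natDegree_C_mul_le _ _) ?_)
        exact natDegree_pow_le.trans (Nat.mul_le_mul_left 6 hedeg)
      have h2 : (4 * Z ^ 3 + a * Z + b).natDegree ≤ 2 * D := by
        refine (natDegree_add_le _ _).trans (max_le ((natDegree_add_le _ _).trans (max_le ?_ ?_)) ?_)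
        · refine natDegree_mul_le.trans ?_
          rw [natDegree_ofNat]
          exact (Nat.add_le_add le_rfl natDegree_pow_le).trans (by omega)
        · exact natDegree_mul_le.trans (by omega)
        · omega
      omega
    refine ⟨x, y, hxy, Z, rfl, hZ, hZdeg.trans (by omega), H, hH0, hHdeg, hH2, fun t ht => ?_⟩
    by_contra htS
    have htb : t ∉ bad := fun h => htS (Finset.mem_union_left _ h)
    have hxv : x ∈ valueRing t := fun h => htS (hden t h)
    obtain ⟨hy, h', hs⟩ := specW_some_of_mem (hsmooth htb) hxy hxv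
    have het : e.eval t ≠ 0 := fun h => by
      rw [eval_prod, Finset.prod_eq_zero_iff] at h
      obtain ⟨s, hs', h⟩ := h
      rw [eval_pow] at h
      have h0 := (pow_eq_zero_iff').1 h
      simp only [eval_sub, eval_X, eval_C] at h0
      exact htS (sub_eq_zero.1 h0.1 ▸ hs')
    -- the value of `2 y + a₁ x + a₃` vanishes
    set u : valueRing t := ⟨x, hxv⟩
    set w : valueRing t := ⟨y, hy⟩
    set a₁ : valueRing t := ⟨g W.a₁, algebraMap_mem_valueRing t _⟩
    set a₃ : valueRing t := ⟨g W.a₃, algebraMap_mem_valueRing t _⟩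
    set E₁ : valueRing t := ⟨g e, algebraMap_mem_valueRing t _⟩
    have heq : (⟨g H, algebraMap_mem_valueRing t _⟩ : valueRing t) =
        (w + w + a₁ * u + a₃) * E₁ ^ 3 := Subtype.ext (by
      show g H = (y + y + g W.a₁ * x + g W.a₃) * g e ^ 3
      rw [show g H = η * g e ^ 3 from hH, hη, two_mul]
      rfl)
    have hval := congrArg (valueAt t) heq
    simp only [map_mul, map_add, map_pow, valueAt_algebraMap, a₁, a₃, E₁, g] at hval
    rw [show H.eval t = 0 from ht, eq_comm, mul_eq_zero] at hval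
    have hval' := hval.resolve_right (pow_ne_zero 3 het)
    refine htS (Finset.mem_union_right _ (hVspec htb (r := 2 * r) (by omega) (by omega) ?_))
    rw [mul_nsmul', map_nsmul, hR, hs, two_nsmul]
    refine Affine.Point.add_self_of_Y_eq ?_
    show valueAt t w = -valueAt t w - (evalRingHom t) W.a₁ * valueAt t u - (evalRingHom t) W.a₃
    simp only [coe_evalRingHom]
    linear_combination hval'
  choose! x y hxy Z hR hZ hZdeg hH using hsol
  have hinj : Set.InjOn Z ↑(Finset.Icc 1 M) := fun r hr r' hr' h => by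
    have h1 := hZ r hr
    rw [h, hZ r' hr'] at h1
    have hx : x r' = x r := add_right_cancel (mul_right_cancel₀ (pow_ne_zero 2 (hg0 he0)) h1)
    rw [Finset.coe_Icc, Set.mem_Icc] at hr hr'
    by_contra hne
    have hxRep : (r • P).xRep = (r' • P).xRep := by
      rw [hR r (Finset.mem_Icc.2 hr), hR r' (Finset.mem_Icc.2 hr'), Affine.Point.xRep_some,
        Affine.Point.xRep_some, hx]
    rcases Affine.Point.eq_or_eq_neg_of_xRep_eq_xRep hxRep with e' | e'
    · rcases Nat.lt_or_gt_of_ne hne with hlt | hlt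
      · exact hno (r' - r) (by omega) (by omega) (by rw [sub_nsmul _ hlt.le, ← e', add_neg_cancel])
      · exact hno (r - r') (by omega) (by omega) (by rw [sub_nsmul _ hlt.le, e', add_neg_cancel])
    · exact hno (r + r') (by omega) (by omega) (by rw [add_nsmul, e', neg_add_cancel])
  have hcard := card_solutions_le hnd S D ((Finset.Icc 1 M).image Z) fun Q hQ => by
    obtain ⟨r, hr, rfl⟩ := Finset.mem_image.1 hQ
    exact ⟨hZdeg r hr, hH r hr⟩
  rw [Finset.card_image_of_injOn hinj, Nat.card_Icc] at hcard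
  have hp : (D + 1) ^ S.card ≤ (D + 1) ^ s₀ := Nat.pow_le_pow_right (Nat.succ_pos D) hScard
  have : 3 * ((D + 1) ^ S.card + 1) * (D + 1) ^ S.card ≤ 3 * ((D + 1) ^ s₀ + 1) * (D + 1) ^ s₀ :=
    Nat.mul_le_mul (by omega) hp
  omega

/-- **Bounded multiples force torsion** over every field of characteristic zero. -/
theorem exists_bound {W : WeierstrassCurve k[X]} (hW : W.Δ ≠ 0)
    (hns : ¬IsSplit W) (B : ℕ) :
    ∃ N : ℕ, ∀ P : (genW W).toAffine.Point,
      (∀ r : ℕ, 1 ≤ r → r ≤ N → ptDeg (toPoint (r • P).xRep) ≤ B) →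
        ∃ r : ℕ, 0 < r ∧ r ≤ 2 * N ∧ r • P = 0 := by
  set ψ := algebraMap k (AlgebraicClosure k)
  set W' := W.map (mapRingHom ψ) with hW'def
  have hW' : W'.Δ ≠ 0 := by
    rw [hW'def, WeierstrassCurve.map_Δ, coe_mapRingHom]
    exact (Polynomial.map_ne_zero_iff ψ.injective).2 hW
  haveI := genW_isElliptic hW
  haveI := genW_isElliptic hW'
  obtain ⟨N, hN⟩ := exists_bound_algClosed hW' (fun e => hns (isSplit_of_map hW e)) B
  refine ⟨N, fun P hP => ?_⟩
  set π := pointMap (constMap ψ) (genW_map ψ W)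
  obtain ⟨r, h1, h2, h3⟩ := hN (π P) fun r h1 h2 => by
    rw [← map_nsmul]
    refine le_of_eq_of_le ?_ (hP r h1 h2)
    rcases r • P with _ | ⟨x, y, hxy⟩
    · show ptDeg (toPoint (π 0).xRep) = ptDeg (toPoint (0 : (genW W).toAffine.Point).xRep)
      rw [map_zero, Affine.Point.xRep_zero, Affine.Point.xRep_zero]
      simp [toPoint, ptDeg_infty]
    · rw [pointMap_some, ptDeg_some, ptDeg_some, num_constMap, denom_constMap, natDegree_map,
        natDegree_map]
  rw [← map_nsmul, map_eq_zero_iff _ (pointMap_injective _ _)] at h3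
  exact ⟨r, h1, h2, h3⟩

end FA.LangNeron
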