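import Fermat.Agent.LangNeron.DegHeight
import Fermat.Agent.LangNeron.Multiples
import Mathlib.Topology.Instances.Rat

/-!
# The height over `k(T)` is positive definite on a non-constant curve

Points of small height have bounded multiples, so are killed by one number. A real null vector of
the pairing of independent points would have, by simultaneous approximation, small nonzero
combinations; so there is none.
-/

set_option autoImplicit false
set_option linter.style.haveILetI false
set_option linter.unusedSectionVars false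

noncomputable section

open WeierstrassCurve Polynomial OnePoint Matrix
open FA.ArithmeticDynamics FA.CallSilverman
open FA.NeronSpecialisation (genW genW_isElliptic)
open scoped Classical

namespace FA.LangNeron

variable {k : Type*} [Field k] [CharZero k] {W : WeierstrassCurve k[X]}

/-- The curve is no constant curve. -/
def NonSplit (W : WeierstrassCurve k[X]) : Prop :=
  W.Δ ≠ 0 ∧ ¬IsSplit W

theorem nonSplit_of_not_const (hW : W.Δ ≠ 0) (hj : ¬∃ c : k, W.c₄ ^ 3 = Polynomial.C c * W.Δ) :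
    NonSplit W :=
  ⟨hW, not_isSplit_of_not_const hW hj⟩

/-- **Small height means torsion of bounded order.** -/
theorem exists_gap (h : NonSplit W) :
    ∃ δ : ℝ, 0 < δ ∧ ∃ M : ℕ, 0 < M ∧
      ∀ R : (genW W).toAffine.Point, genHgt W R < δ → M • R = 0 := by
  haveI := genW_isElliptic h.1
  obtain ⟨⟨C, hC⟩, hpar, hnn⟩ := genHgt_spec h.1
  obtain ⟨N, hN⟩ := exists_bound h.1 h.2 ⌈1 + C⌉₊
  refine ⟨1 / ((N : ℝ) + 1) ^ 2, by positivity, (2 * N + 1).factorial, Nat.factorial_pos _,
    fun R hR => ?_⟩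
  obtain ⟨r, h1, h2, h3⟩ := hN R fun r _ hr => by
    have hf : genHgt W (r • R) < 1 := by
      rw [FA.Height.map_nsmul_of_law hpar]
      have hr' : (r : ℝ) ^ 2 ≤ ((N : ℝ) + 1) ^ 2 :=
        pow_le_pow_left₀ (Nat.cast_nonneg _) (by exact_mod_cast Nat.le_succ_of_le hr) 2
      calc (r : ℝ) ^ 2 * genHgt W R ≤ ((N : ℝ) + 1) ^ 2 * genHgt W R :=
            mul_le_mul_of_nonneg_right hr' (hnn R)
        _ < ((N : ℝ) + 1) ^ 2 * (1 / ((N : ℝ) + 1) ^ 2) :=
            mul_lt_mul_of_pos_left hR (by positivity)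
        _ = 1 := mul_one_div_cancel (by positivity)
    have hd := (abs_le.1 (hC (r • R))).1
    exact Nat.cast_le.1 ((show (ptDeg (toPoint (r • R).xRep) : ℝ) ≤ 1 + C by linarith).trans
      (Nat.le_ceil _))
  obtain ⟨c, hc⟩ := Nat.dvd_factorial h1 (show r ≤ 2 * N + 1 by omega)
  rw [hc, mul_comm, mul_nsmul', h3, nsmul_zero]

/-- **The height vanishes exactly on the torsion points.** -/
theorem genHgt_eq_zero_iff (h : NonSplit W) (R : (genW W).toAffine.Point) :
    haveI := genW_isElliptic h.1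
    genHgt W R = 0 ↔ IsOfFinAddOrder R := by
  haveI := genW_isElliptic h.1
  obtain ⟨-, hpar, -⟩ := genHgt_spec h.1
  refine ⟨fun h0 => ?_, fun hR => ?_⟩
  · obtain ⟨δ, hδ, M, hM, hM'⟩ := exists_gap h
    exact isOfFinAddOrder_iff_nsmul_eq_zero.2 ⟨M, hM, hM' R (h0 ▸ hδ)⟩
  · obtain ⟨n, hn, hn'⟩ := isOfFinAddOrder_iff_nsmul_eq_zero.1 hR
    have h1 := FA.Height.map_nsmul_of_law hpar n R
    rw [hn', FA.Height.map_zero_of_law hpar, eq_comm, mul_eq_zero] at h1
    exact h1.resolve_left (pow_ne_zero _ (Nat.cast_ne_zero.2 hn.ne'))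

/-- The quadratic form of the pairing on real vectors. -/
def pairForm (W : WeierstrassCurve k[X]) {n : ℕ} (P : Fin n → (genW W).toAffine.Point)
    (u v : Fin n → ℝ) : ℝ :=
  ∑ i, ∑ j, u i * v j * genPairing W (P i) (P j)

theorem pairForm_int (hW : W.Δ ≠ 0) {n : ℕ} (P : Fin n → (genW W).toAffine.Point) (m : Fin n → ℤ) :
    pairForm W P (fun i => m i) (fun i => m i) = genHgt W (∑ i, m i • P i) := by
  obtain ⟨-, hpar, -⟩ := genHgt_spec hW
  exact (FA.Height.map_sum_zsmul hpar m P).symm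

theorem pairForm_nonneg (hW : W.Δ ≠ 0) {n : ℕ} (P : Fin n → (genW W).toAffine.Point)
    (v : Fin n → ℝ) : 0 ≤ pairForm W P v v := by
  haveI := genW_isElliptic hW
  obtain ⟨-, -, hnn⟩ := genHgt_spec hW
  have hclosed : IsClosed {v : Fin n → ℝ | 0 ≤ pairForm W P v v} :=
    isClosed_le continuous_const (by simp only [pairForm]; fun_prop)
  refine (DenseRange.piMap fun _ : Fin n => (Rat.denseRange_cast : DenseRange ((↑) : ℚ → ℝ))).induction_on
    v hclosed fun q => ?_
  set d : ℕ := ∏ i, (q i).den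
  have hd : 0 < (d : ℝ) := Nat.cast_pos.2 (Finset.prod_pos fun i _ => (q i).den_pos)
  choose c hc using fun i => Finset.dvd_prod_of_mem (fun i => (q i).den) (Finset.mem_univ i)
  have key : ∀ i, ((q i : ℚ) : ℝ) * d = (((q i).num * c i : ℤ) : ℝ) := fun i => by
    have h1 : ((q i : ℚ) : ℝ) * ((q i).den : ℝ) = ((q i).num : ℝ) := by
      exact_mod_cast Rat.mul_den_eq_num (q i)
    rw [show d = (q i).den * c i from hc i]
    push_cast
    rw [← mul_assoc, h1]
  have h := hnn (∑ i, ((q i).num * c i : ℤ) • P i)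
  rw [← pairForm_int hW] at h
  have e : pairForm W P (fun i => (((q i).num * c i : ℤ) : ℝ)) (fun i => (((q i).num * c i : ℤ) : ℝ)) =
      (d : ℝ) ^ 2 * pairForm W P (Pi.map (fun _ => ((↑) : ℚ → ℝ)) q) (Pi.map (fun _ => ((↑) : ℚ → ℝ)) q) := by
    simp only [pairForm, Finset.mul_sum, ← key, Pi.map]
    exact Finset.sum_congr rfl fun i _ => Finset.sum_congr rfl fun j _ => by ring
  rw [e] at h
  exact nonneg_of_mul_nonneg_right h (pow_pos hd 2)

theorem pairForm_le {n : ℕ} (P : Fin n → (genW W).toAffine.Point) {u : Fin n → ℝ} {δ : ℝ}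
    (hu : ∀ i, |u i| ≤ δ) :
    pairForm W P u u ≤ δ ^ 2 * ∑ i, ∑ j, |genPairing W (P i) (P j)| := by
  simp only [pairForm, Finset.mul_sum]
  refine Finset.sum_le_sum fun i _ => Finset.sum_le_sum fun j _ => (le_abs_self _).trans ?_
  rw [abs_mul, abs_mul, sq]
  exact mul_le_mul_of_nonneg_right
    (mul_le_mul (hu i) (hu j) (abs_nonneg _) ((abs_nonneg _).trans (hu i))) (abs_nonneg _)

/-- Simultaneous approximation. -/
theorem exists_approx {n : ℕ} (w : Fin n → ℝ) {M : ℕ} (hM : 0 < M) :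
    ∃ t : ℕ, 0 < t ∧ ∃ m : Fin n → ℤ, ∀ i, |(t : ℝ) * w i - m i| < 1 / (M : ℝ) := by
  have hM' : (0 : ℝ) < M := Nat.cast_pos.2 hM
  have hcell : ∀ (a : Fin (M ^ n + 1)) i, ⌊(M : ℝ) * Int.fract ((a : ℕ) * w i)⌋.toNat < M :=
    fun a i => by
      rw [Int.toNat_lt' hM]
      refine Int.floor_lt.2 ?_
      push_cast
      calc (M : ℝ) * Int.fract ((a : ℕ) * w i) < M * 1 :=
            mul_lt_mul_of_pos_left (Int.fract_lt_one _) hM'
        _ = M := mul_one _
  obtain ⟨a, b, hne, hab⟩ := Fintype.exists_ne_map_eq_of_card_lt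
    (fun (a : Fin (M ^ n + 1)) (i : Fin n) => (⟨_, hcell a i⟩ : Fin M)) (by simp)
  wlog hlt : (a : ℕ) < b generalizing a b
  · exact this b a hne.symm hab.symm (lt_of_le_of_ne (not_lt.1 hlt) fun h => hne (Fin.ext h.symm))
  refine ⟨(b : ℕ) - a, Nat.sub_pos_of_lt hlt, fun i => ⌊((b : ℕ) : ℝ) * w i⌋ - ⌊((a : ℕ) : ℝ) * w i⌋,
    fun i => ?_⟩
  have h := congrArg Fin.val (congrFun hab i)
  simp only at h
  have h0 : ∀ x : ℝ, 0 ≤ ⌊(M : ℝ) * Int.fract x⌋ := fun x =>
    Int.floor_nonneg.2 (mul_nonneg hM'.le (Int.fract_nonneg _))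
  have hfl : ⌊(M : ℝ) * Int.fract ((a : ℕ) * w i)⌋ = ⌊(M : ℝ) * Int.fract ((b : ℕ) * w i)⌋ := by
    have := Int.toNat_of_nonneg (h0 ((a : ℕ) * w i))
    have := Int.toNat_of_nonneg (h0 ((b : ℕ) * w i))
    omega
  have h1 := Int.abs_sub_lt_one_of_floor_eq_floor hfl
  rw [← mul_sub, abs_mul, abs_of_pos hM', ← lt_div_iff₀' hM', abs_sub_comm] at h1
  rw [Nat.cast_sub hlt.le, Int.cast_sub, sub_mul]
  refine lt_of_eq_of_lt (congrArg _ ?_) h1
  rw [← Int.self_sub_floor, ← Int.self_sub_floor]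
  ring

/-- **The pairing is positive definite on independent points.** -/
theorem genPairing_posDef (h : NonSplit W) {n : ℕ} {P : Fin n → (genW W).toAffine.Point}
    (hP : haveI := genW_isElliptic h.1; LinearIndependent ℤ P) :
    (Matrix.of fun i j => genPairing W (P i) (P j)).PosDef := by
  haveI := genW_isElliptic h.1
  obtain ⟨-, hpar, -⟩ := genHgt_spec h.1
  have hcomm : ∀ i j, genPairing W (P i) (P j) = genPairing W (P j) (P i) := fun i j =>
    FA.Height.pairing_comm (P i) (P j)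
  refine Matrix.PosDef.of_dotProduct_mulVec_pos (Matrix.ext fun i j => hcomm j i) fun v hv => ?_
  have hβ : star v ⬝ᵥ (Matrix.of (fun i j => genPairing W (P i) (P j)) *ᵥ v) = pairForm W P v v := by
    simp only [dotProduct, Matrix.mulVec, Finset.mul_sum, Pi.star_apply, star_trivial, pairForm,
      Matrix.of_apply]
    exact Finset.sum_congr rfl fun i _ => Finset.sum_congr rfl fun j _ => by ring
  rw [hβ]
  refine lt_of_le_of_ne (pairForm_nonneg h.1 P v) fun h0 => ?_
  have hexp : ∀ (s : ℝ) (x : Fin n → ℝ),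
      pairForm W P (fun i => s * v i + x i) (fun i => s * v i + x i) =
        s ^ 2 * pairForm W P v v + s * (pairForm W P v x + pairForm W P x v) + pairForm W P x x :=
    fun s x => by
      simp only [pairForm, mul_add, Finset.mul_sum, ← Finset.sum_add_distrib]
      exact Finset.sum_congr rfl fun i _ => Finset.sum_congr rfl fun j _ => by ring
  have hzero : ∀ x, pairForm W P v x + pairForm W P x v = 0 := fun x => by
    by_contra hne
    have h' := pairForm_nonneg h.1 P fun i =>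
      -(pairForm W P x x + 1) / (pairForm W P v x + pairForm W P x v) * v i + x i
    rw [hexp, ← h0, mul_zero, zero_add, div_mul_cancel₀ _ hne] at h'
    linarith
  obtain ⟨δ, hδ, N, hN, hgap⟩ := exists_gap h
  obtain ⟨i₀, hi₀⟩ := Function.ne_iff.1 hv
  set S := ∑ i, ∑ j, |genPairing W (P i) (P j)|
  have hS : 0 ≤ S := Finset.sum_nonneg fun i _ => Finset.sum_nonneg fun j _ => abs_nonneg _
  obtain ⟨M, hM⟩ := exists_nat_gt (max 1 (S / δ))
  have hM1 : (1 : ℝ) < M := (le_max_left _ _).trans_lt hM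
  set w : Fin n → ℝ := fun i => v i / v i₀
  obtain ⟨t, ht, m, hm⟩ := exists_approx w (M := M) (by exact_mod_cast zero_lt_one.trans hM1)
  have hm0 : m i₀ ≠ 0 := fun e => by
    have h1 := hm i₀
    rw [e, Int.cast_zero, sub_zero, show w i₀ = 1 from div_self hi₀, mul_one] at h1
    have h2 : (1 : ℝ) / M < 1 := (div_lt_one (zero_lt_one.trans hM1)).2 hM1
    rw [Nat.abs_cast] at h1
    have : (1 : ℝ) ≤ t := Nat.one_le_cast.2 ht
    linarith
  have hsmall : genHgt W (∑ i, m i • P i) < δ := by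
    rw [← pairForm_int h.1]
    have e : (fun i => (m i : ℝ)) = fun i => (t : ℝ) / v i₀ * v i + ((m i : ℝ) - t * w i) := by
      funext i; simp only [w]; ring
    rw [e, hexp, ← h0, hzero, mul_zero, mul_zero, zero_add, zero_add]
    refine (pairForm_le P (δ := 1 / (M : ℝ)) fun i => (abs_sub_comm _ _).trans_le (hm i).le).trans_lt ?_
    have h1 : S / δ < M := (le_max_right _ _).trans_lt hM
    rw [div_lt_iff₀ hδ] at h1
    rw [div_pow, one_pow, div_mul_eq_mul_div, one_mul, div_lt_iff₀ (by positivity)]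
    nlinarith
  have h1 := hgap _ hsmall
  rw [Finset.smul_sum] at h1
  simp only [← natCast_zsmul, smul_smul] at h1
  exact hm0 ((mul_eq_zero.1 (Fintype.linearIndependent_iff.1 hP _ h1 i₀)).resolve_left
    (by exact_mod_cast hN.ne'))

end FA.LangNeron
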